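/-
P10 / G4 (global Euler characteristic), leaf (A) (Artin induction), part 10:
a nilpotent equivariant endomorphism `T` of a finite dimensional representation `P` with `T ^ n = 0`
and `ker T ⊆ range (T ^ (n - 1))`: every additive function satisfies `F P = n * F (ker T)`.
-/
import Mathlib
import Fermat.Agent.Lib.TW.Euler.AddFun

set_option autoImplicit false
set_option linter.style.haveILetI false
set_option linter.unusedSectionVars false

open CategoryTheory

namespace Fermat.Agent.TW

noncomputable section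

variable {k : Type} [Field k] {G : Type} [Group G] (F : EcAddFun k G) (P : Rep.{0} k G)
  (T : Module.End k P.V) (hcomm : ∀ g, Commute T (P.ρ g))

include hcomm in
lemma ear_pow_comm (j : ℕ) (g : G) (x : P.V) : (T ^ j) (P.ρ g x) = P.ρ g ((T ^ j) x) := by
  have h2 := LinearMap.congr_fun ((hcomm g).pow_left j).eq x
  rwa [Module.End.mul_apply, Module.End.mul_apply] at h2

include hcomm in
lemma ear_kerpow_stable (j : ℕ) (g : G) :
    LinearMap.ker (T ^ j) ≤ (LinearMap.ker (T ^ j)).comap (P.ρ g) := by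
  intro x hx
  change (T ^ j) (P.ρ g x) = 0
  rw [ear_pow_comm P T hcomm, LinearMap.mem_ker.1 hx, map_zero]

/-- the subrepresentation `ker (T ^ j)` -/
def earKerPow (j : ℕ) : Rep.{0} k G :=
  ecSub P (LinearMap.ker (T ^ j)) (ear_kerpow_stable P T hcomm j)

lemma ear_kerpow_le (j : ℕ) : LinearMap.ker (T ^ j) ≤ LinearMap.ker (T ^ (j + 1)) := by
  intro x hx
  rw [LinearMap.mem_ker] at hx ⊢
  rw [pow_succ', Module.End.mul_apply, hx, map_zero]

/-- the inclusion `ker (T ^ j) ⟶ ker (T ^ (j + 1))` -/
def earKerPowIncl (j : ℕ) : earKerPow P T hcomm j ⟶ earKerPow P T hcomm (j + 1) :=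
  Rep.ofHom ⟨Submodule.inclusion (ear_kerpow_le P T j), fun _ => rfl⟩

/-- `T ^ j : ker (T ^ (j + 1)) ⟶ ker (T ^ 1)` -/
def earKerPowMap (j : ℕ) : earKerPow P T hcomm (j + 1) ⟶ earKerPow P T hcomm 1 :=
  Rep.ofHom ⟨(T ^ j).restrict (p := LinearMap.ker (T ^ (j + 1))) (q := LinearMap.ker (T ^ 1))
    (fun x hx => by
      rw [LinearMap.mem_ker] at hx ⊢
      rw [← Module.End.mul_apply, ← pow_add, add_comm]
      exact hx), fun g => by
    refine LinearMap.ext fun x => Subtype.ext ?_
    exact ear_pow_comm P T hcomm j g x.1⟩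

lemma earKerPowMap_apply (j : ℕ) (x : (earKerPow P T hcomm (j + 1)).V) :
    ((earKerPowMap P T hcomm j).hom x).1 = (T ^ j) x.1 := rfl

theorem ear_filtration_step [Module.Finite k P.V] (n j : ℕ) (hj : j + 1 ≤ n)
    (hker : ∀ z : P.V, T z = 0 → ∃ y, (T ^ (n - 1)) y = z) (hT : T ^ n = 0) :
    F.f (earKerPow P T hcomm (j + 1)) =
      F.f (earKerPow P T hcomm j) + F.f (earKerPow P T hcomm 1) := by
  refine F.add _ _ _ (earKerPowIncl P T hcomm j) (earKerPowMap P T hcomm j) ?_ ?_ ?_ ?_
  · change Module.Finite k ↥(LinearMap.ker (T ^ (j + 1)))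
    infer_instance
  · intro a b hab
    apply Subtype.ext
    have := congrArg Subtype.val hab
    exact this
  · rintro ⟨z1, hz1⟩
    have hz : T z1 = 0 := by
      rw [LinearMap.mem_ker, pow_one] at hz1
      exact hz1
    obtain ⟨y, hy⟩ := hker z1 hz
    have h1 : (T ^ (n - 1 - j)) y ∈ LinearMap.ker (T ^ (j + 1)) := by
      rw [LinearMap.mem_ker, ← Module.End.mul_apply, ← pow_add]
      have : j + 1 + (n - 1 - j) = n := by omega
      rw [this, hT]
      rfl
    refine ⟨⟨(T ^ (n - 1 - j)) y, h1⟩, Subtype.ext ?_⟩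
    rw [earKerPowMap_apply]
    change (T ^ j) ((T ^ (n - 1 - j)) y) = z1
    rw [← Module.End.mul_apply, ← pow_add]
    have : j + (n - 1 - j) = n - 1 := by omega
    rw [this, hy]
  · intro x
    constructor
    · intro hx
      have h1 : (T ^ j) x.1 = 0 := by
        rw [← earKerPowMap_apply, hx]
        rfl
      exact ⟨⟨x.1, LinearMap.mem_ker.2 h1⟩, Subtype.ext rfl⟩
    · rintro ⟨x', rfl⟩
      apply Subtype.ext
      rw [earKerPowMap_apply]
      exact LinearMap.mem_ker.1 x'.2

/-- **The filtration by the kernels of the powers of a nilpotent endomorphism.** -/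
theorem ear_filtration [Module.Finite k P.V] (n : ℕ)
    (hker : ∀ z : P.V, T z = 0 → ∃ y, (T ^ (n - 1)) y = z) (hT : T ^ n = 0) :
    F.f P = n * F.f (earKerPow P T hcomm 1) := by
  have h1 : ∀ j : ℕ, j ≤ n → F.f (earKerPow P T hcomm j) = j * F.f (earKerPow P T hcomm 1) := by
    intro j
    induction j with
    | zero =>
      intro _
      haveI : Subsingleton (earKerPow P T hcomm 0).V := by
        refine ⟨fun a b => ?_⟩
        obtain ⟨a, ha⟩ := a
        obtain ⟨b, hb⟩ := b
        apply Subtype.ext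
        rw [LinearMap.mem_ker, pow_zero] at ha hb
        exact ha.trans hb.symm
      rw [F.map_of_subsingleton, Nat.cast_zero, zero_mul]
    | succ j ih =>
      intro hj
      rw [ear_filtration_step F P T hcomm n j hj hker hT, ih (by omega)]
      push_cast
      ring
  rw [← h1 n le_rfl]
  refine F.iso _ _ ⟨?_⟩
  let e := ecSubIncl P (LinearMap.ker (T ^ n)) (ear_kerpow_stable P T hcomm n)
  have hb : Function.Bijective e.hom :=
    ⟨fun a b hab => Subtype.ext hab, fun f => ⟨⟨f, by rw [hT]; exact LinearMap.mem_ker.2 rfl⟩, rfl⟩⟩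
  haveI : IsIso e := ec_isIso_of_bijective e hb
  exact (asIso e).symm

end

end Fermat.Agent.TW
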