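/-
P10 / G4 (global Euler characteristic), leaf (A) (Artin induction), part 5:
coinduction from a subgroup is exact, so `N ↦ F (coind_H^G N)` is an additive function on
`Rep k H`; transitivity of coinduction; coinduction along the identity; transport of coinduction
along an injective homomorphism to its range.
-/
import Mathlib
import Fermat.Agent.Lib.TW.Euler.AddFun

set_option autoImplicit false
set_option linter.style.haveILetI false
set_option linter.unusedSectionVars false

open CategoryTheory

namespace Fermat.Agent.TW

noncomputable section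

variable {k : Type} [Field k] {G : Type} [Group G]

lemma earCoind_ρ_apply {U : Type} [Group U] (φ : U →* G) (N : Rep.{0} k U) (g : G)
    (f : (Rep.coind φ N).V) (x : G) : ((Rep.coind φ N).ρ g f).1 x = f.1 (x * g) := rfl

lemma earCoind_mem {U : Type} [Group U] (φ : U →* G) (N : Rep.{0} k U)
    (f : (Rep.coind φ N).V) (u : U) (x : G) : f.1 (φ u * x) = N.ρ u (f.1 x) := f.2 u x

lemma earCoindMap_apply {U : Type} [Group U] (φ : U →* G) {N N' : Rep.{0} k U} (ψ : N ⟶ N')
    (f : (Rep.coind φ N).V) (x : G) : ((Rep.coindMap φ ψ).hom f).1 x = ψ.hom (f.1 x) := rfl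

/-- the additive function `N ↦ F (coind_H^G N)` on `Rep k H` -/
def earCoindFun [Finite G] (F : EcAddFun k G) (H : Subgroup G) : EcAddFun k H where
  f N := F.f (Rep.coind H.subtype N)
  iso X Y := fun ⟨e⟩ => F.iso _ _ ⟨(Rep.coindFunctor k H.subtype).mapIso e⟩
  add X Y Z i q hY hi hq hex := by
    haveI := hY
    refine F.add _ _ _ (Rep.coindMap H.subtype i) (Rep.coindMap H.subtype q) ?_ ?_ ?_ ?_
    · change Module.Finite k ↥(Representation.coindV H.subtype Y.ρ)
      infer_instance
    · intro f f' hff'
      apply Subtype.ext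
      funext x
      apply hi
      have := congrArg (fun e : (Rep.coind H.subtype Y).V => e.1 x) hff'
      exact this
    · haveI : Epi q := (Rep.epi_iff_surjective q).2 hq
      haveI : Epi ((Rep.coindFunctor k H.subtype).map q) := inferInstance
      exact (Rep.epi_iff_surjective ((Rep.coindFunctor k H.subtype).map q)).1 inferInstance
    · intro f
      constructor
      · intro hf
        have h1 : ∀ x : G, ∃ a : X.V, i.hom a = f.1 x := fun x => by
          apply (hex _).1
          have := congrArg (fun e : (Rep.coind H.subtype Z).V => e.1 x) hf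
          exact this
        choose f' hf' using h1
        refine ⟨⟨f', fun u x => ?_⟩, ?_⟩
        · apply hi
          rw [hf', Rep.hom_comm_apply, hf']
          exact f.2 u x
        · apply Subtype.ext
          funext x
          exact hf' x
      · rintro ⟨f', rfl⟩
        apply Subtype.ext
        funext x
        exact (hex _).2 ⟨f'.1 x, rfl⟩

lemma earCoindFun_f [Finite G] (F : EcAddFun k G) (H : Subgroup G) (N : Rep.{0} k H) :
    (earCoindFun F H).f N = F.f (Rep.coind H.subtype N) := rfl

/-! ### Transitivity of coinduction -/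

section Trans

variable {U H : Type} [Group U] [Group H] (φ : U →* H) (ψ : H →* G) (N : Rep.{0} k U)

/-- evaluation at `1`: `coind ψ (coind φ N) ⟶ coind (ψ ∘ φ) N` -/
def earCoindTrans : Rep.coind ψ (Rep.coind φ N) ⟶ Rep.coind (ψ.comp φ) N :=
  Rep.ofHom ⟨
    { toFun := fun f => ⟨fun x => (f.1 x).1 1, fun u x => by
        change (f.1 (ψ (φ u) * x)).1 1 = N.ρ u ((f.1 x).1 1)
        rw [f.2 (φ u) x, earCoind_ρ_apply, one_mul, ← mul_one (φ u)]
        exact (f.1 x).2 u 1⟩
      map_add' := fun _ _ => rfl
      map_smul' := fun _ _ => rfl }, fun _ => rfl⟩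

lemma earCoindTrans_apply (f : (Rep.coind ψ (Rep.coind φ N)).V) (x : G) :
    ((earCoindTrans φ ψ N).hom f).1 x = (f.1 x).1 1 := rfl

lemma earCoindTrans_bijective : Function.Bijective (earCoindTrans φ ψ N).hom := by
  constructor
  · rw [injective_iff_map_eq_zero]
    intro f hf
    apply Subtype.ext
    funext x
    apply Subtype.ext
    funext h
    have h1 : (f.1 (ψ h * x)).1 1 = 0 := by
      rw [← earCoindTrans_apply, hf]
      rfl
    rw [f.2 h x, earCoind_ρ_apply, one_mul] at h1
    exact h1
  · intro e
    refine ⟨⟨fun x => ⟨fun h => e.1 (ψ h * x), fun u h => ?_⟩, fun h₀ x => ?_⟩, ?_⟩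
    · change e.1 (ψ (φ u * h) * x) = N.ρ u (e.1 (ψ h * x))
      rw [map_mul, mul_assoc]
      exact e.2 u _
    · apply Subtype.ext
      funext h
      change e.1 (ψ h * (ψ h₀ * x)) = e.1 (ψ (h * h₀) * x)
      rw [map_mul, mul_assoc]
    · apply Subtype.ext
      funext x
      change e.1 (ψ 1 * x) = e.1 x
      rw [map_one, one_mul]

/-- transitivity of coinduction -/
def earCoindTransIso : Rep.coind ψ (Rep.coind φ N) ≅ Rep.coind (ψ.comp φ) N := by
  haveI : IsIso (earCoindTrans φ ψ N) := ec_isIso_of_bijective _ (earCoindTrans_bijective φ ψ N)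
  exact asIso (earCoindTrans φ ψ N)

end Trans

/-! ### Coinduction along the identity -/

/-- evaluation at `1`: `coind id M ⟶ M` -/
def earCoindId (M : Rep.{0} k G) : Rep.coind (MonoidHom.id G) M ⟶ M :=
  Rep.ofHom ⟨
    { toFun := fun f => f.1 1
      map_add' := fun _ _ => rfl
      map_smul' := fun _ _ => rfl }, fun g => by
    ext f
    change f.1 (1 * g) = M.ρ g (f.1 1)
    have h2 : f.1 (g * 1) = M.ρ g (f.1 1) := f.2 g 1
    rw [mul_one] at h2
    rw [one_mul]
    exact h2⟩

lemma earCoindId_bijective (M : Rep.{0} k G) : Function.Bijective (earCoindId M).hom := by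
  constructor
  · rw [injective_iff_map_eq_zero]
    intro f hf
    apply Subtype.ext
    funext x
    have h1 : f.1 1 = 0 := hf
    have h2 := f.2 x 1
    rw [h1, map_zero] at h2
    simpa using h2
  · intro m
    refine ⟨⟨fun x => M.ρ x m, fun u x => ?_⟩, ?_⟩
    · change M.ρ (u * x) m = M.ρ u (M.ρ x m)
      rw [map_mul]
      rfl
    · change M.ρ 1 m = m
      rw [map_one]
      rfl

/-- coinduction along the identity does nothing -/
def earCoindIdIso (M : Rep.{0} k G) : Rep.coind (MonoidHom.id G) M ≅ M := by
  haveI : IsIso (earCoindId M) := ec_isIso_of_bijective _ (earCoindId_bijective M)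
  exact asIso (earCoindId M)

/-! ### Transport to the range of an injective homomorphism -/

section Range

variable {U : Type} [Group U] (φ : U →* G) (hφ : Function.Injective φ) (N : Rep.{0} k U)

/-- the representation of `φ.range` corresponding to a representation of `U` -/
def earRangeRep : Rep.{0} k φ.range :=
  Rep.res (MonoidHom.ofInjective hφ).symm.toMonoidHom N

lemma earRangeRep_ρ (u : U) (n : N.V) :
    (earRangeRep φ hφ N).ρ ⟨φ u, u, rfl⟩ n = N.ρ u n := by
  change N.ρ ((MonoidHom.ofInjective hφ).symm ⟨φ u, u, rfl⟩) n = N.ρ u n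
  congr 2
  apply hφ
  have := (MonoidHom.ofInjective hφ).apply_symm_apply ⟨φ u, u, rfl⟩
  exact congrArg Subtype.val this

/-- the identity on functions: `coind φ N ⟶ coind (range φ).subtype N'` -/
def earCoindRange : Rep.coind φ N ⟶ Rep.coind φ.range.subtype (earRangeRep φ hφ N) :=
  Rep.ofHom ⟨
    { toFun := fun f => ⟨f.1, fun r x => by
        obtain ⟨_, u, rfl⟩ := r
        rw [earRangeRep_ρ]
        exact f.2 u x⟩
      map_add' := fun _ _ => rfl
      map_smul' := fun _ _ => rfl }, fun _ => rfl⟩

lemma earCoindRange_bijective : Function.Bijective (earCoindRange φ hφ N).hom := by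
  constructor
  · intro f f' hff'
    apply Subtype.ext
    have := congrArg Subtype.val hff'
    exact this
  · intro e
    refine ⟨⟨e.1, fun u x => ?_⟩, Subtype.ext rfl⟩
    have := e.2 ⟨φ u, u, rfl⟩ x
    rw [earRangeRep_ρ] at this
    exact this

/-- coinduction along an injective homomorphism is coinduction from its range -/
def earCoindRangeIso : Rep.coind φ N ≅ Rep.coind φ.range.subtype (earRangeRep φ hφ N) := by
  haveI : IsIso (earCoindRange φ hφ N) :=
    ec_isIso_of_bijective _ (earCoindRange_bijective φ hφ N)
  exact asIso (earCoindRange φ hφ N)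

end Range

end

end Fermat.Agent.TW
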