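/-
P10 / G4 (global Euler characteristic), leaf (A) (Artin induction), part 1:
finite-dimensional representations of a finite group over a field of characteristic `0` with the
same character are isomorphic.
-/
import Mathlib

set_option autoImplicit false
set_option linter.style.haveILetI false
set_option linter.unusedSectionVars false

open Representation

namespace Fermat.Agent.TW

noncomputable section

universe u

variable {k : Type*} [Field k] {G : Type*} [Group G]

section Trace

variable {V : Type*} [AddCommGroup V] [Module k V] [FiniteDimensional k V]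

/-- the trace of an endomorphism preserving two complementary subspaces -/
theorem ear_trace_eq_of_isCompl (S T : Submodule k V) (h : IsCompl S T) (f : V →ₗ[k] V)
    (hS : ∀ x ∈ S, f x ∈ S) (hT : ∀ x ∈ T, f x ∈ T) :
    LinearMap.trace k V f =
      LinearMap.trace k S (f.restrict hS) + LinearMap.trace k T (f.restrict hT) := by
  set e := Submodule.prodEquivOfIsCompl S T h with he
  have hconj : e.conj ((f.restrict hS).prodMap (f.restrict hT)) = f := by
    apply LinearMap.ext
    intro v
    obtain ⟨⟨s, t⟩, rfl⟩ := e.surjective v
    rw [LinearEquiv.conj_apply_apply, LinearEquiv.symm_apply_apply, LinearMap.prodMap_apply,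
      Submodule.coe_prodEquivOfIsCompl', Submodule.coe_prodEquivOfIsCompl', map_add]
    rfl
  calc LinearMap.trace k V f
      = LinearMap.trace k V (e.conj ((f.restrict hS).prodMap (f.restrict hT))) := by rw [hconj]
    _ = _ := by rw [LinearMap.trace_conj', LinearMap.trace_prodMap']

end Trace

section Main

variable [Fintype G] [CharZero k]

/-- the character of a subrepresentation plus the character of a complement -/
theorem ear_character_eq_add {V : Type*} [AddCommGroup V] [Module k V] [FiniteDimensional k V]
    (ρ : Representation k G V) (S T : Submodule k V) (h : IsCompl S T)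
    (hS : ∀ g, S ≤ S.comap (ρ g)) (hT : ∀ g, T ≤ T.comap (ρ g)) (g : G) :
    ρ.character g = (ρ.subrepresentation S hS).character g +
      (ρ.subrepresentation T hT).character g :=
  ear_trace_eq_of_isCompl S T h (ρ g) (fun _ hx => hS g hx) (fun _ hx => hT g hx)

/-- the character is invariant under equivariant linear equivalences -/
theorem ear_character_eq_of_equiv {V W : Type*} [AddCommGroup V] [Module k V]
    [AddCommGroup W] [Module k W] (ρ : Representation k G V) (σ : Representation k G W)
    (e : V ≃ₗ[k] W) (he : ∀ g v, e (ρ g v) = σ g (e v)) (g : G) :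
    ρ.character g = σ.character g := by
  have : e.conj (ρ g) = σ g := by
    apply LinearMap.ext
    intro w
    rw [LinearEquiv.conj_apply_apply, he, LinearEquiv.apply_symm_apply]
  show LinearMap.trace k V (ρ g) = LinearMap.trace k W (σ g)
  rw [← this, LinearMap.trace_conj']

/-- Maschke: an invariant subspace has an invariant complement -/
theorem ear_exists_invariant_compl {V : Type*} [AddCommGroup V] [Module k V]
    (ρ : Representation k G V) (S : Submodule k V) (hS : ∀ g, S ≤ S.comap (ρ g)) :
    ∃ T : Submodule k V, IsCompl S T ∧ ∀ g, T ≤ T.comap (ρ g) := by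
  haveI : NeZero (Nat.card G : k) := ⟨by
    rw [Nat.cast_ne_zero]
    exact Nat.card_pos.ne'⟩
  obtain ⟨b, hb⟩ := exists_isCompl (⟨S, fun g v hv => hS g hv⟩ : Subrepresentation ρ)
  refine ⟨b.toSubmodule, ⟨?_, ?_⟩, fun g v hv => b.apply_mem_toSubmodule g hv⟩
  · rw [disjoint_iff]
    have := congrArg Subrepresentation.toSubmodule (disjoint_iff.1 hb.disjoint)
    exact this
  · rw [codisjoint_iff]
    have := congrArg Subrepresentation.toSubmodule (codisjoint_iff.1 hb.codisjoint)
    exact this

/-- the scalar product of characters computes the dimension of the space of intertwining maps -/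
theorem ear_finrank_intertwining_eq {S V W : Type*} [AddCommGroup S] [Module k S]
    [FiniteDimensional k S] [AddCommGroup V] [Module k V] [FiniteDimensional k V]
    [AddCommGroup W] [Module k W] [FiniteDimensional k W] (τ : Representation k G S)
    (ρ : Representation k G V) (σ : Representation k G W) (h : ρ.character = σ.character) :
    Module.finrank k (IntertwiningMap τ ρ) = Module.finrank k (IntertwiningMap τ σ) := by
  have hne : (Nat.card G : k) ≠ 0 := by
    rw [Nat.cast_ne_zero]
    exact Nat.card_pos.ne'
  letI : Invertible (Nat.card G : k) := invertibleOfNonzero hne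
  have h1 := card_inv_mul_sum_char_mul_char_eq_finrank τ ρ
  have h2 := card_inv_mul_sum_char_mul_char_eq_finrank τ σ
  rw [h] at h1
  exact Nat.cast_injective (R := k) (h1.symm.trans h2)

/-- **Representations with the same character are isomorphic** (finite group, characteristic
`0`); inductive form. -/
theorem ear_exists_equiv_of_character_eq_aux :
    ∀ (n : ℕ) (V W : Type u) [AddCommGroup V] [Module k V] [FiniteDimensional k V]
      [AddCommGroup W] [Module k W] [FiniteDimensional k W]
      (ρ : Representation k G V) (σ : Representation k G W),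
      Module.finrank k V = n → ρ.character = σ.character →
      ∃ e : V ≃ₗ[k] W, ∀ g v, e (ρ g v) = σ g (e v) := by
  classical
  intro n
  induction n using Nat.strong_induction_on with
  | _ n ih =>
    intro V W _ _ _ _ _ _ ρ σ hn hχ
    have hdim : Module.finrank k W = Module.finrank k V := by
      have h1 := congrFun hχ 1
      rw [char_one, char_one] at h1
      exact_mod_cast h1.symm
    by_cases hn0 : n = 0
    · subst hn0
      haveI : Subsingleton V := Module.finrank_zero_iff.1 hn
      haveI : Subsingleton W := Module.finrank_zero_iff.1 (hdim.trans hn)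
      exact ⟨LinearEquiv.ofSubsingleton V W, fun g v => Subsingleton.elim _ _⟩
    haveI : Nontrivial V := Module.nontrivial_of_finrank_pos (R := k)
      (by rw [hn]; exact Nat.pos_of_ne_zero hn0)
    -- a minimal non-zero invariant subspace
    have hP : ∃ d : ℕ, ∃ S : Submodule k V, S ≠ ⊥ ∧ (∀ g, S ≤ S.comap (ρ g)) ∧
        Module.finrank k S = d :=
      ⟨_, ⊤, top_ne_bot, fun g => le_top, rfl⟩
    obtain ⟨S, hS0, hS, hSd⟩ := Nat.find_spec hP
    have hmin : ∀ S' : Submodule k V, S' ≠ ⊥ → (∀ g, S' ≤ S'.comap (ρ g)) → S' ≤ S → S' = S := by
      intro S' h0 hinv hle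
      apply Submodule.eq_of_le_of_finrank_le hle
      rw [hSd]
      exact Nat.find_min' hP ⟨S', h0, hinv, rfl⟩
    -- a non-zero intertwining map `S → W`
    have hfr := ear_finrank_intertwining_eq (ρ.subrepresentation S hS) ρ σ hχ
    let ι : IntertwiningMap (ρ.subrepresentation S hS) ρ := ⟨S.subtype, fun g => rfl⟩
    have hι : ι ≠ 0 := by
      intro h
      apply hS0
      rw [eq_bot_iff]
      intro x hx
      have := congrArg (fun f : IntertwiningMap (ρ.subrepresentation S hS) ρ => f ⟨x, hx⟩) h
      exact this
    have hpos : 0 < Module.finrank k (IntertwiningMap (ρ.subrepresentation S hS) σ) := by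
      rw [← hfr]
      exact Module.finrank_pos_iff_exists_ne_zero.2 ⟨ι, hι⟩
    obtain ⟨f, hf⟩ := Module.finrank_pos_iff_exists_ne_zero.1 hpos
    have hfint : ∀ g x, f (ρ.subrepresentation S hS g x) = σ g (f x) := fun g x =>
      LinearMap.congr_fun (f.isIntertwining' g) x
    -- `f` is injective
    have hfinj : Function.Injective f := by
      rw [injective_iff_map_eq_zero]
      intro s hs
      by_contra hs0
      set K' : Submodule k V := (LinearMap.ker f.toLinearMap).map S.subtype with hK'
      have hK'S : K' ≤ S := by
        rintro _ ⟨x, -, rfl⟩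
        exact x.2
      have hK'0 : K' ≠ ⊥ := by
        intro h0
        have : (s : V) ∈ K' := ⟨s, hs, rfl⟩
        rw [h0, Submodule.mem_bot] at this
        exact hs0 (Subtype.ext this)
      have hK'inv : ∀ g, K' ≤ K'.comap (ρ g) := by
        rintro g _ ⟨x, hx, rfl⟩
        refine ⟨ρ.subrepresentation S hS g x, ?_, rfl⟩
        show f (ρ.subrepresentation S hS g x) = 0
        rw [hfint, show f x = 0 from hx, map_zero]
      have hKS := hmin K' hK'0 hK'inv hK'S
      apply hf
      apply IntertwiningMap.ext
      apply LinearMap.ext
      intro x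
      have hx : (x : V) ∈ K' := by
        rw [hKS]
        exact x.2
      obtain ⟨y, hy, hyx⟩ := hx
      have : y = x := Subtype.ext hyx
      rw [← this]
      exact hy
    -- the image of `f`
    set S' : Submodule k W := LinearMap.range f.toLinearMap with hS'def
    have hS' : ∀ g, S' ≤ S'.comap (σ g) := by
      rintro g _ ⟨x, rfl⟩
      exact ⟨ρ.subrepresentation S hS g x, hfint g x⟩
    let fE : S ≃ₗ[k] S' := LinearEquiv.ofInjective f.toLinearMap hfinj
    have hfE : ∀ g (s : S), fE (ρ.subrepresentation S hS g s) =
        σ.subrepresentation S' hS' g (fE s) := by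
      intro g s
      apply Subtype.ext
      exact hfint g s
    -- complements
    obtain ⟨T, hST, hT⟩ := ear_exists_invariant_compl ρ S hS
    obtain ⟨T', hST', hT'⟩ := ear_exists_invariant_compl σ S' hS'
    have hχS : (ρ.subrepresentation S hS).character = (σ.subrepresentation S' hS').character :=
      funext fun g => ear_character_eq_of_equiv _ _ fE hfE g
    have hχT : (ρ.subrepresentation T hT).character = (σ.subrepresentation T' hT').character := by
      funext g
      have e1 := ear_character_eq_add ρ S T hST hS hT g
      have e2 := ear_character_eq_add σ S' T' hST' hS' hT' g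
      rw [hχ, e2, hχS] at e1
      exact (add_left_cancel e1).symm
    have hSpos : 0 < Module.finrank k S := by
      rw [Module.finrank_pos_iff_exists_ne_zero]
      obtain ⟨x, hx, hx0⟩ := (Submodule.ne_bot_iff S).1 hS0
      exact ⟨⟨x, hx⟩, fun h => hx0 (congrArg Subtype.val h)⟩
    have hTlt : Module.finrank k T < n := by
      have := Submodule.finrank_add_eq_of_isCompl hST
      omega
    obtain ⟨e', he'⟩ := ih _ hTlt T T' (ρ.subrepresentation T hT) (σ.subrepresentation T' hT')
      rfl hχT
    -- assemble
    let E : V ≃ₗ[k] W := (Submodule.prodEquivOfIsCompl S T hST).symm.trans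
      ((fE.prodCongr e').trans (Submodule.prodEquivOfIsCompl S' T' hST'))
    refine ⟨E, fun g v => ?_⟩
    obtain ⟨⟨s, t⟩, rfl⟩ := (Submodule.prodEquivOfIsCompl S T hST).surjective v
    have h1 : ρ g (Submodule.prodEquivOfIsCompl S T hST (s, t)) =
        Submodule.prodEquivOfIsCompl S T hST
          (ρ.subrepresentation S hS g s, ρ.subrepresentation T hT g t) := by
      rw [Submodule.coe_prodEquivOfIsCompl', Submodule.coe_prodEquivOfIsCompl', map_add]
      rfl
    have hE : ∀ (s : S) (t : T), E (Submodule.prodEquivOfIsCompl S T hST (s, t)) =
        ((fE s : S') : W) + ((e' t : T') : W) := by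
      intro s t
      show (Submodule.prodEquivOfIsCompl S' T' hST') ((fE.prodCongr e')
        ((Submodule.prodEquivOfIsCompl S T hST).symm
          (Submodule.prodEquivOfIsCompl S T hST (s, t)))) = _
      rw [LinearEquiv.symm_apply_apply, LinearEquiv.prodCongr_apply,
        Submodule.coe_prodEquivOfIsCompl']
    rw [h1, hE, hE, hfE, he', map_add]
    rfl

/-- **Representations with the same character are isomorphic** (finite group, characteristic
`0`). -/
theorem ear_exists_equiv_of_character_eq {V W : Type u} [AddCommGroup V] [Module k V]
    [FiniteDimensional k V] [AddCommGroup W] [Module k W] [FiniteDimensional k W]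
    (ρ : Representation k G V) (σ : Representation k G W) (h : ρ.character = σ.character) :
    ∃ e : V ≃ₗ[k] W, ∀ g v, e (ρ g v) = σ g (e v) :=
  ear_exists_equiv_of_character_eq_aux _ V W ρ σ rfl h

end Main

end

end Fermat.Agent.TW
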