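/-
P10 / G4 (global Euler characteristic), leaf (A) (Artin induction), part 2:
permutation representations `X → R` of a finite `G`-set; the character over a field is the number
of fixed points; two finite `G`-sets with the same fixed point counts have isomorphic rational
permutation representations, and an injective equivariant map with finite cokernel between the
integral ones.
-/
import Mathlib
import Fermat.Agent.Lib.TW.Euler.ArtinInd.RatIso

set_option autoImplicit false
set_option linter.style.haveILetI false
set_option linter.unusedSectionVars false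

namespace Fermat.Agent.TW

noncomputable section

variable {G : Type} [Group G]

/-- the permutation representation of `G` on the functions `X → R`:
`(g • u) x = u (g⁻¹ • x)` -/
def earPermRep (R : Type*) [CommRing R] (X : Type*) [MulAction G X] :
    Representation R G (X → R) where
  toFun g := LinearMap.funLeft R R (fun x => g⁻¹ • x)
  map_one' := by
    ext u x
    simp
  map_mul' g h := by
    ext u x
    simp [mul_smul]

@[simp] lemma earPermRep_apply (R : Type*) [CommRing R] (X : Type*) [MulAction G X] (g : G)
    (u : X → R) (x : X) : earPermRep R X g u x = u (g⁻¹ • x) := rfl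

/-- the character of a permutation representation counts fixed points -/
theorem ear_perm_character (k : Type*) [Field k] (X : Type*) [MulAction G X] [Fintype X]
    [DecidableEq X] (g : G) :
    (earPermRep k X).character g = (Nat.card {x : X // g • x = x} : k) := by
  change LinearMap.trace k (X → k) (earPermRep k X g) = _
  rw [LinearMap.trace_eq_matrix_trace k (Pi.basisFun k X), Matrix.trace]
  simp only [Matrix.diag_apply, LinearMap.toMatrix_apply, Pi.basisFun_repr, Pi.basisFun_apply,
    earPermRep_apply, Pi.single_apply]
  rw [Finset.sum_boole, Nat.card_eq_fintype_card, Fintype.card_subtype]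
  congr 2
  ext x
  simp only [Finset.mem_filter, Finset.mem_univ, true_and]
  rw [inv_smul_eq_iff, eq_comm]

/-- two finite `G`-sets with the same fixed point counts have isomorphic rational permutation
representations -/
theorem ear_exists_rat_equiv [Finite G] (X Y : Type) [MulAction G X] [MulAction G Y] [Finite X]
    [Finite Y] (h : ∀ g : G, Nat.card {x : X // g • x = x} = Nat.card {y : Y // g • y = y}) :
    ∃ e : (X → ℚ) ≃ₗ[ℚ] (Y → ℚ), ∀ (g : G) v, e (earPermRep ℚ X g v) = earPermRep ℚ Y g (e v) := by
  classical
  haveI := Fintype.ofFinite G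
  haveI := Fintype.ofFinite X
  haveI := Fintype.ofFinite Y
  refine ear_exists_equiv_of_character_eq (earPermRep ℚ X) (earPermRep ℚ Y) ?_
  ext g
  rw [ear_perm_character, ear_perm_character, h g]

/-- clearing denominators in a rational matrix -/
theorem ear_exists_integral_multiple (X Y : Type) [Fintype X] [DecidableEq X] [Fintype Y]
    (L : (X → ℚ) →ₗ[ℚ] (Y → ℚ)) :
    ∃ b : ℤ, b ≠ 0 ∧ ∃ κ : (X → ℤ) →ₗ[ℤ] (Y → ℤ), ∀ (u : X → ℤ) (y : Y),
      ((κ u y : ℤ) : ℚ) = b * L (fun x => (u x : ℚ)) y := by
  obtain ⟨b, hb⟩ := IsLocalization.exist_integer_multiples_of_finite (S := ℚ) (nonZeroDivisors ℤ)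
    (fun yx : Y × X => L (fun j => if yx.2 = j then 1 else 0) yx.1)
  choose m hm using hb
  refine ⟨b, nonZeroDivisors.coe_ne_zero b, Matrix.mulVecLin (Matrix.of fun y x => m (y, x)), ?_⟩
  intro u y
  rw [Matrix.mulVecLin_apply, LinearMap.pi_apply_eq_sum_univ L, Finset.sum_apply, Finset.mul_sum]
  simp only [Matrix.mulVec, dotProduct, Matrix.of_apply, Int.cast_sum, Int.cast_mul]
  refine Finset.sum_congr rfl (fun x _ => ?_)
  have := hm (y, x)
  simp only [eq_intCast, zsmul_eq_mul] at this
  rw [this]
  simp only [Pi.smul_apply, smul_eq_mul]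
  ring

/-- two finite `G`-sets with the same fixed point counts: there is an injective equivariant map
between the integral permutation representations whose image contains a nonzero multiple of
everything -/
theorem ear_exists_lattice_map [Finite G] (X Y : Type) [MulAction G X] [MulAction G Y] [Finite X]
    [Finite Y] (h : ∀ g : G, Nat.card {x : X // g • x = x} = Nat.card {y : Y // g • y = y}) :
    ∃ κ : (X → ℤ) →ₗ[ℤ] (Y → ℤ), (∀ (g : G) u, κ (earPermRep ℤ X g u) = earPermRep ℤ Y g (κ u)) ∧
      Function.Injective κ ∧ ∃ n : ℤ, n ≠ 0 ∧ ∀ w : Y → ℤ, ∃ u, κ u = n • w := by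
  classical
  haveI := Fintype.ofFinite X
  haveI := Fintype.ofFinite Y
  obtain ⟨e, he⟩ := ear_exists_rat_equiv X Y h
  obtain ⟨b, hb0, κ, hκ⟩ := ear_exists_integral_multiple X Y e.toLinearMap
  obtain ⟨b', hb0', κ', hκ'⟩ := ear_exists_integral_multiple Y X e.symm.toLinearMap
  refine ⟨κ, ?_, ?_, b * b', mul_ne_zero hb0 hb0', fun w => ⟨κ' w, ?_⟩⟩
  · intro g u
    funext y
    apply Int.cast_injective (α := ℚ)
    rw [hκ, earPermRep_apply, hκ]
    have h1 : (fun x => ((earPermRep ℤ X g u x : ℤ) : ℚ)) =
        earPermRep ℚ X g (fun x => (u x : ℚ)) := rfl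
    rw [h1]
    change (b : ℚ) * e (earPermRep ℚ X g _) y = _
    rw [he]
    rfl
  · rw [injective_iff_map_eq_zero]
    intro u hu
    have h1 : e (fun x => (u x : ℚ)) = 0 := by
      funext y
      have := hκ u y
      rw [hu] at this
      simp only [Pi.zero_apply, Int.cast_zero] at this
      have hb' : (b : ℚ) ≠ 0 := Int.cast_ne_zero.2 hb0
      rcases mul_eq_zero.1 this.symm with h2 | h2
      · exact absurd h2 hb'
      · exact h2
    have h2 := e.injective (h1.trans (map_zero e).symm)
    funext x
    have := congrFun h2 x
    simpa using this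
  · funext y
    apply Int.cast_injective (α := ℚ)
    rw [hκ]
    have h1 : (fun x => ((κ' w x : ℤ) : ℚ)) = (b' : ℚ) • e.symm (fun y => (w y : ℚ)) := by
      funext x
      rw [hκ']
      rfl
    rw [h1]
    change (b : ℚ) * e ((b' : ℚ) • e.symm _) y = _
    rw [map_smul, LinearEquiv.apply_symm_apply]
    simp only [Pi.smul_apply, smul_eq_mul, Int.cast_mul]
    ring

end

end Fermat.Agent.TW
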