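/-
P10 / G4 (global Euler characteristic), leaf (A) (Artin induction), part 3:
the integral permutation representation `earPerm ℤ X` of a finite `G`-set and the consequence of the
lattice lemma: an additive function on `Rep (ZMod p) G` takes the same value on `ℤ[X] / p` and
`ℤ[Y] / p` as soon as `X` and `Y` have the same fixed point counts.
-/
import Mathlib
import Fermat.Agent.Lib.TW.Euler.TorCot
import Fermat.Agent.Lib.TW.Euler.ArtinInd.Perm

set_option autoImplicit false
set_option linter.style.haveILetI false
set_option linter.unusedSectionVars false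

open CategoryTheory

namespace Fermat.Agent.TW

noncomputable section

variable {G : Type} [Group G]

/-- the permutation representation on `X → R`, as an object of `Rep R G` -/
def earPerm (R : Type) [CommRing R] (X : Type) [MulAction G X] : Rep.{0} R G :=
  Rep.of (earPermRep R X)

lemma earPerm_ρ_apply (R : Type) [CommRing R] (X : Type) [MulAction G X] (g : G)
    (u : X → R) (x : X) : (earPerm R X).ρ g u x = u (g⁻¹ • x) := rfl

/-- a finitely generated abelian group killed by a nonzero integer is finite -/
theorem ear_finite_of_killed (A : Type*) [AddCommGroup A] [Module.Finite ℤ A] (n : ℤ) (hn : n ≠ 0)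
    (h : ∀ a : A, n • a = 0) : Finite A := by
  refine Module.finite_of_fg_torsion A (fun a => ?_)
  exact ⟨⟨n, mem_nonZeroDivisors_of_ne_zero hn⟩, h a⟩

instance ear_finite_cot_perm (p : ℕ) [Fact p.Prime] (X : Type) [MulAction G X] [Finite X] :
    Finite (ecCot p (earPerm (G := G) ℤ X)).V := by
  change Finite ((earPerm (G := G) ℤ X).V ⧸ LinearMap.range (ecPMul p (earPerm (G := G) ℤ X)))
  haveI : Module.Finite ℤ (earPerm (G := G) ℤ X).V := (inferInstance : Module.Finite ℤ (X → ℤ))
  refine ear_finite_of_killed _ (p : ℤ) (by exact_mod_cast (Fact.out : p.Prime).ne_zero)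
    (fun a => ?_)
  have := ec_cot_killed p (earPerm (G := G) ℤ X) a
  rw [natCast_zsmul]
  exact this

/-- **Lattice lemma for permutation modules**: finite `G`-sets with the same fixed point counts
have the same value of every additive function on their mod `p` permutation modules. -/
theorem ear_cot_perm_eq [Finite G] (p : ℕ) [Fact p.Prime] (Φ : EcAddFun (ZMod p) G) (X Y : Type)
    [MulAction G X] [MulAction G Y] [Finite X] [Finite Y]
    (h : ∀ g : G, Nat.card {x : X // g • x = x} = Nat.card {y : Y // g • y = y}) :
    Φ.f (ecCot p (earPerm ℤ X)) = Φ.f (ecCot p (earPerm ℤ Y)) := by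
  obtain ⟨κ, hκ, hinj, n, hn, hsurj⟩ := ear_exists_lattice_map (G := G) X Y h
  let i : earPerm (G := G) ℤ X ⟶ earPerm ℤ Y :=
    Rep.ofHom ⟨κ, fun g => by ext u : 1; exact hκ g u⟩
  have hst := ec_range_stable i
  let q := ecQuotProj (earPerm (G := G) ℤ Y) _ hst
  haveI : Finite (ecQuot (earPerm (G := G) ℤ Y) _ hst).V := by
    change Finite ((earPerm (G := G) ℤ Y).V ⧸ LinearMap.range i.hom.toLinearMap)
    haveI : Module.Finite ℤ (earPerm (G := G) ℤ Y).V := (inferInstance : Module.Finite ℤ (Y → ℤ))
    refine ear_finite_of_killed _ n hn (fun a => ?_)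
    obtain ⟨w, rfl⟩ := Submodule.mkQ_surjective _ a
    rw [← map_zsmul, Submodule.mkQ_apply, Submodule.Quotient.mk_eq_zero]
    obtain ⟨u, hu⟩ := hsurj w
    exact ⟨u, hu⟩
  refine (ecCot_eq_of_finite_quot p Φ i q hinj (Submodule.mkQ_surjective _) (fun y => ?_)
    (fun x hx => ?_)).symm
  · change (LinearMap.range i.hom.toLinearMap).mkQ y = 0 ↔ _
    rw [Submodule.mkQ_apply, Submodule.Quotient.mk_eq_zero]
    rfl
  · funext y
    have := congrFun hx y
    change p • (x y) = 0 at this
    rw [smul_eq_zero] at this
    exact this.resolve_left (Fact.out : p.Prime).ne_zero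

end

end Fermat.Agent.TW
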