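/-
P10 / G4 (global Euler characteristic), leaf (A) (Artin induction), part 4:
the representation `earFun X M` on the functions `X → M` (`X` a `G`-set, `M` a representation),
the internal Hom `earHom N M`, the additive function `N ↦ F (Hom (N, M))`, and the consequence of
the lattice lemma: `F (earFun X M) = F (earFun Y M)` when `X` and `Y` have the same fixed point
counts.
-/
import Mathlib
import Fermat.Agent.Lib.TW.Euler.ArtinInd.Lattice

set_option autoImplicit false
set_option linter.style.haveILetI false
set_option linter.unusedSectionVars false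

open CategoryTheory

namespace Fermat.Agent.TW

noncomputable section

section General

variable {k : Type} [Field k] {G : Type} [Group G]

/-- the representation of `G` on the functions `X → M`: `(g • f) x = g (f (g⁻¹ • x))` -/
def earFunRep (X : Type) [MulAction G X] (M : Rep.{0} k G) : Representation k G (X → M.V) where
  toFun g := (M.ρ g).compLeft X ∘ₗ LinearMap.funLeft k M.V (fun x => g⁻¹ • x)
  map_one' := by
    ext f x
    simp
  map_mul' g h := by
    ext f x
    simp [mul_smul]

/-- the functions `X → M`, as an object of `Rep k G` -/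
def earFun (X : Type) [MulAction G X] (M : Rep.{0} k G) : Rep.{0} k G := Rep.of (earFunRep X M)

lemma earFun_ρ_apply (X : Type) [MulAction G X] (M : Rep.{0} k G) (g : G) (f : X → M.V) (x : X) :
    (earFun X M).ρ g f x = M.ρ g (f (g⁻¹ • x)) := rfl

/-- the internal Hom `Hom_k (N, M)`, as an object of `Rep k G` -/
def earHom (N M : Rep.{0} k G) : Rep.{0} k G := Rep.of (Representation.linHom N.ρ M.ρ)

lemma earHom_ρ_apply (N M : Rep.{0} k G) (g : G) (f : N.V →ₗ[k] M.V) (x : N.V) :
    (show N.V →ₗ[k] M.V from (earHom N M).ρ g f) x = M.ρ g (f (N.ρ g⁻¹ x)) := rfl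

/-- precomposition with a morphism -/
def earHomMap {N N' : Rep.{0} k G} (φ : N ⟶ N') (M : Rep.{0} k G) : earHom N' M ⟶ earHom N M :=
  Rep.ofHom ⟨LinearMap.lcomp k M.V φ.hom.toLinearMap, fun g => by
    ext f x
    change M.ρ g (f (N'.ρ g⁻¹ (φ.hom x))) = M.ρ g (f (φ.hom (N.ρ g⁻¹ x)))
    rw [Rep.hom_comm_apply]⟩

lemma earHomMap_apply {N N' : Rep.{0} k G} (φ : N ⟶ N') (M : Rep.{0} k G)
    (f : N'.V →ₗ[k] M.V) (x : N.V) :
    (show N.V →ₗ[k] M.V from (earHomMap φ M).hom f) x = f (φ.hom x) := rfl

/-- `Hom (-, M)` preserves isomorphisms -/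
def earHomIso {N N' : Rep.{0} k G} (e : N ≅ N') (M : Rep.{0} k G) : earHom N M ≅ earHom N' M := by
  let ψ : earHom N M ⟶ earHom N' M := earHomMap e.inv M
  have hb : Function.Bijective ψ.hom := by
    constructor
    · intro f f' hff'
      apply LinearMap.ext
      intro x
      have h1 := LinearMap.congr_fun hff' (e.hom.hom x)
      rw [earHomMap_apply, earHomMap_apply] at h1
      have h2 : e.inv.hom (e.hom.hom x) = x := Rep.inv_hom_apply _ _ e x
      rwa [h2] at h1
    · intro f
      refine ⟨(earHomMap e.hom M).hom f, ?_⟩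
      apply LinearMap.ext
      intro x
      rw [earHomMap_apply, earHomMap_apply]
      have h2 : e.hom.hom (e.inv.hom x) = x := Rep.hom_inv_apply _ _ e x
      rw [h2]
  haveI : IsIso ψ := ec_isIso_of_bijective _ hb
  exact asIso ψ

/-- the additive function `N ↦ F (Hom (N, M))` -/
def earHomFun (F : EcAddFun k G) (M : Rep.{0} k G) [Module.Finite k M.V] : EcAddFun k G where
  f N := F.f (earHom N M)
  iso X Y := fun ⟨e⟩ => F.iso _ _ ⟨earHomIso e M⟩
  add X Y Z i q hY hi hq hex := by
    haveI := hY
    have hadd := F.add (earHom Z M) (earHom Y M) (earHom X M) (earHomMap q M) (earHomMap i M)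
      (show Module.Finite k (Y.V →ₗ[k] M.V) from inferInstance) ?_ ?_ ?_
    · rw [hadd, add_comm]
    · intro f f' hff'
      apply LinearMap.ext
      intro z
      obtain ⟨y, rfl⟩ := hq z
      exact LinearMap.congr_fun hff' y
    · intro (f : X.V →ₗ[k] M.V)
      obtain ⟨r, hr⟩ := LinearMap.exists_leftInverse_of_injective i.hom.toLinearMap
        (LinearMap.ker_eq_bot.2 hi)
      refine ⟨f.comp r, ?_⟩
      apply LinearMap.ext
      intro x
      rw [earHomMap_apply]
      change f (r (i.hom.toLinearMap x)) = f x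
      have := LinearMap.congr_fun hr x
      rw [LinearMap.comp_apply] at this
      rw [this]
      rfl
    · intro (f : Y.V →ₗ[k] M.V)
      constructor
      · intro hf
        obtain ⟨s, hs⟩ := LinearMap.exists_rightInverse_of_surjective q.hom.toLinearMap
          (LinearMap.range_eq_top.2 hq)
        refine ⟨f.comp s, ?_⟩
        apply LinearMap.ext
        intro y
        rw [earHomMap_apply]
        change f (s (q.hom y)) = f y
        have h1 : q.hom (y - s (q.hom y)) = 0 := by
          rw [map_sub]
          have := LinearMap.congr_fun hs (q.hom y)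
          rw [LinearMap.comp_apply] at this
          change q.hom (s (q.hom y)) = q.hom y at this
          rw [this, sub_self]
        obtain ⟨x, hx⟩ := (hex _).1 h1
        have h2 : f (i.hom x) = 0 := by
          have := LinearMap.congr_fun hf x
          rwa [earHomMap_apply] at this
        rw [hx, map_sub, sub_eq_zero] at h2
        exact h2.symm
      · rintro ⟨f', rfl⟩
        apply LinearMap.ext
        intro x
        rw [earHomMap_apply, earHomMap_apply, (hex _).2 ⟨x, rfl⟩, map_zero]
        rfl

lemma earHomFun_f (F : EcAddFun k G) (M : Rep.{0} k G) [Module.Finite k M.V] (N : Rep.{0} k G) :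
    (earHomFun F M).f N = F.f (earHom N M) := rfl

end General

section Psi

open scoped Classical

variable {G : Type} [Group G] (p : ℕ) [Fact p.Prime]

lemma earPerm_single (R : Type) [CommRing R] (X : Type) [MulAction G X] (g : G) (x : X) :
    (earPerm R X).ρ g (Pi.single x (1 : R)) = Pi.single (g • x) (1 : R) := by
  funext y
  rw [earPerm_ρ_apply, Pi.single_apply, Pi.single_apply]
  congr 1
  exact propext inv_smul_eq_iff

/-- evaluation on the standard basis: `Hom (ℤ[X] / p, M) ⟶ (X → M)` -/
def earPsi (X : Type) [MulAction G X] (M : Rep.{0} (ZMod p) G) :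
    earHom (ecCot p (earPerm (G := G) ℤ X)) M ⟶ earFun X M :=
  Rep.ofHom ⟨LinearMap.pi (fun x => LinearMap.applyₗ
      (ecCotMk p (earPerm (G := G) ℤ X) (Pi.single x (1 : ℤ)))), fun g => by
    ext f x
    change M.ρ g (f ((ecCot p (earPerm (G := G) ℤ X)).ρ g⁻¹
      (ecCotMk p (earPerm (G := G) ℤ X) (Pi.single x (1 : ℤ))))) =
      M.ρ g (f (ecCotMk p (earPerm (G := G) ℤ X) (Pi.single (g⁻¹ • x) (1 : ℤ))))
    rw [← ecCotMk_ρ, earPerm_single]⟩

lemma earPsi_bijective (X : Type) [MulAction G X] [Finite X] (M : Rep.{0} (ZMod p) G) :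
    Function.Bijective (earPsi p X M).hom := by
  haveI := Fintype.ofFinite X
  constructor
  · rw [injective_iff_map_eq_zero]
    intro (f : (ecCot p (earPerm (G := G) ℤ X)).V →ₗ[ZMod p] M.V) hf
    have h0 : ∀ x, f (ecCotMk p (earPerm (G := G) ℤ X) (Pi.single x (1 : ℤ))) = 0 :=
      fun x => congrFun hf x
    have h1 : (f.toAddMonoidHom.comp (ecCotMk p (earPerm (G := G) ℤ X)) : (X → ℤ) →+ M.V) = 0 := by
      apply AddMonoidHom.functions_ext
      intro x n
      have h2 : (Pi.single x n : X → ℤ) = n • Pi.single x (1 : ℤ) := by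
        funext y
        simp [Pi.single_apply]
      rw [h2, map_zsmul]
      change n • f (ecCotMk p (earPerm (G := G) ℤ X) (Pi.single x (1 : ℤ))) = _
      rw [h0, smul_zero]
      rfl
    apply LinearMap.ext
    intro c
    obtain ⟨u, rfl⟩ := ecCotMk_surjective p (earPerm (G := G) ℤ X) c
    exact DFunLike.congr_fun h1 u
  · intro (φ : X → M.V)
    let a : (X → ℤ) →+ M.V :=
      ∑ x, (zmultiplesHom M.V (φ x)).comp (Pi.evalAddMonoidHom (fun _ : X => ℤ) x)
    have ha : ∀ u : X → ℤ, a u = ∑ x, u x • φ x := fun u => by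
      change (∑ x, (zmultiplesHom M.V (φ x)).comp (Pi.evalAddMonoidHom (fun _ : X => ℤ) x)) u = _
      rw [AddMonoidHom.finsetSum_apply]
      rfl
    have hker : (LinearMap.range (ecPMul p (earPerm (G := G) ℤ X))).toAddSubgroup ≤ a.ker := by
      rintro _ ⟨(w : X → ℤ), rfl⟩
      have h3 := ecPMul_apply p (earPerm (G := G) ℤ X) w
      have h4 : a (p • w) = 0 := by
        rw [map_nsmul]
        exact ZModModule.char_nsmul_eq_zero p _
      have h5 : a (ecPMul p (earPerm (G := G) ℤ X) w) = 0 := by
        rw [h3]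
        exact h4
      exact AddMonoidHom.mem_ker.2 h5
    let ℓ : (ecCot p (earPerm (G := G) ℤ X)).V →+ M.V := QuotientAddGroup.lift _ a hker
    refine ⟨ℓ.toZModLinearMap p, funext fun x => ?_⟩
    change a (Pi.single x (1 : ℤ)) = φ x
    rw [ha, Finset.sum_eq_single x]
    · rw [Pi.single_eq_same, one_smul]
    · intro y _ hy
      rw [Pi.single_eq_of_ne hy, zero_smul]
    · intro hx
      exact absurd (Finset.mem_univ x) hx

/-- `Hom (ℤ[X] / p, M) ≅ (X → M)` -/
def earPsiIso (X : Type) [MulAction G X] [Finite X] (M : Rep.{0} (ZMod p) G) :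
    earHom (ecCot p (earPerm (G := G) ℤ X)) M ≅ earFun X M := by
  haveI : IsIso (earPsi p X M) := ec_isIso_of_bijective _ (earPsi_bijective p X M)
  exact asIso (earPsi p X M)

/-- **Finite `G`-sets with the same fixed point counts have the same `F (X → M)`.** -/
theorem ear_fun_eq_of_fix [Finite G] (F : EcAddFun (ZMod p) G) (M : Rep.{0} (ZMod p) G)
    [Finite M.V] (X Y : Type) [MulAction G X] [MulAction G Y] [Finite X] [Finite Y]
    (h : ∀ g : G, Nat.card {x : X // g • x = x} = Nat.card {y : Y // g • y = y}) :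
    F.f (earFun X M) = F.f (earFun Y M) := by
  haveI : Module.Finite (ZMod p) M.V := Module.Finite.of_finite
  have h1 := ear_cot_perm_eq p (earHomFun F M) X Y h
  rw [earHomFun_f, earHomFun_f] at h1
  rw [← F.iso _ _ ⟨earPsiIso p X M⟩, ← F.iso _ _ ⟨earPsiIso p Y M⟩, h1]

end Psi

end

end Fermat.Agent.TW
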