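/-
P10 / G4 (global Euler characteristic), leaf (A) (Artin induction), part 6:
`earFun X M` for a transitive `G`-set is coinduced from the stabiliser of a point; for a one point
set it is `M`; for a disjoint union (sigma type) the additive function adds up.
-/
import Mathlib
import Fermat.Agent.Lib.TW.Euler.ArtinInd.FunRep
import Fermat.Agent.Lib.TW.Euler.ArtinInd.Coind

set_option autoImplicit false
set_option linter.style.haveILetI false
set_option linter.unusedSectionVars false

open CategoryTheory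

namespace Fermat.Agent.TW

noncomputable section

variable {k : Type} [Field k] {G : Type} [Group G]

/-! ### Transitive `G`-sets -/

section Transitive

variable (X : Type) [MulAction G X] (M : Rep.{0} k G) (x₀ : X) (H : Subgroup G)
  (hH : ∀ g : G, g ∈ H ↔ g • x₀ = x₀)

/-- `φ ↦ (g ↦ g (φ (g⁻¹ x₀)))` : `(X → M) ⟶ coind_H^G (res M)` -/
def earOrbitMap : earFun X M ⟶ Rep.coind H.subtype (Rep.res H.subtype M) :=
  Rep.ofHom ⟨
    { toFun := fun (φ : X → M.V) => ⟨fun g => M.ρ g (φ (g⁻¹ • x₀)), fun h g => by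
        change M.ρ (h.1 * g) (φ ((h.1 * g)⁻¹ • x₀)) = M.ρ h.1 (M.ρ g (φ (g⁻¹ • x₀)))
        have h1 : (h.1)⁻¹ • x₀ = x₀ := (hH _).1 (H.inv_mem h.2)
        rw [mul_inv_rev, mul_smul, h1, map_mul]
        rfl⟩
      map_add' := fun φ φ' => by
        apply Subtype.ext
        funext g
        exact map_add (M.ρ g) _ _
      map_smul' := fun c φ => by
        apply Subtype.ext
        funext g
        exact map_smul (M.ρ g) _ _ }, fun g₀ => by
    refine LinearMap.ext fun (φ : X → M.V) => Subtype.ext (funext fun g => ?_)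
    change M.ρ g (M.ρ g₀ (φ (g₀⁻¹ • g⁻¹ • x₀))) = M.ρ (g * g₀) (φ ((g * g₀)⁻¹ • x₀))
    rw [mul_inv_rev, mul_smul, map_mul]
    rfl⟩

lemma earOrbitMap_apply (φ : X → M.V) (g : G) :
    ((earOrbitMap X M x₀ H hH).hom φ).1 g = M.ρ g (φ (g⁻¹ • x₀)) := rfl

lemma earOrbitMap_bijective (htr : ∀ x : X, ∃ g : G, g • x₀ = x) :
    Function.Bijective (earOrbitMap X M x₀ H hH).hom := by
  constructor
  · rw [injective_iff_map_eq_zero]
    intro (φ : X → M.V) hφ
    funext x
    obtain ⟨g, rfl⟩ := htr x
    have h1 : M.ρ g⁻¹ (φ ((g⁻¹)⁻¹ • x₀)) = 0 := by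
      rw [← earOrbitMap_apply X M x₀ H hH, hφ]
      rfl
    rw [inv_inv] at h1
    have h2 := congrArg (M.ρ g) h1
    rw [map_zero, ← Module.End.mul_apply, ← map_mul, mul_inv_cancel, map_one] at h2
    exact h2
  · intro f
    choose γ hγ using htr
    refine ⟨(fun x => M.ρ (γ x) (f.1 (γ x)⁻¹) : X → M.V), ?_⟩
    apply Subtype.ext
    funext g
    rw [earOrbitMap_apply]
    set g' := γ (g⁻¹ • x₀) with hg'
    have h1 : g * g' ∈ H := by
      rw [hH, mul_smul, hg', hγ, smul_inv_smul]
    have h2 : f.1 g'⁻¹ = M.ρ (g * g')⁻¹ (f.1 g) := by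
      have h2' : f.1 ((g * g')⁻¹ * g) = M.ρ (g * g')⁻¹ (f.1 g) :=
        f.2 ⟨(g * g')⁻¹, H.inv_mem h1⟩ g
      have h2'' : (g * g')⁻¹ * g = g'⁻¹ := by group
      rw [h2''] at h2'
      exact h2'
    rw [h2, ← Module.End.mul_apply, ← Module.End.mul_apply, ← map_mul, ← map_mul]
    have h3 : g * g' * (g * g')⁻¹ = 1 := mul_inv_cancel _
    rw [h3, map_one]
    rfl

/-- for a transitive `G`-set, `(X → M) ≅ coind_H^G (res M)`, `H` the stabiliser of a point -/
def earOrbitIso (htr : ∀ x : X, ∃ g : G, g • x₀ = x) :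
    earFun X M ≅ Rep.coind H.subtype (Rep.res H.subtype M) := by
  haveI : IsIso (earOrbitMap X M x₀ H hH) :=
    ec_isIso_of_bijective _ (earOrbitMap_bijective X M x₀ H hH htr)
  exact asIso (earOrbitMap X M x₀ H hH)

end Transitive

/-! ### One point sets -/

/-- evaluation at the point: `(X → M) ⟶ M` for a one point set -/
def earUniqueMap (X : Type) [MulAction G X] [Unique X] (M : Rep.{0} k G) : earFun X M ⟶ M :=
  Rep.ofHom ⟨
    { toFun := fun (φ : X → M.V) => φ default
      map_add' := fun _ _ => rfl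
      map_smul' := fun _ _ => rfl }, fun g => by
    refine LinearMap.ext fun (φ : X → M.V) => ?_
    change M.ρ g (φ (g⁻¹ • default)) = M.ρ g (φ default)
    rw [Subsingleton.elim (g⁻¹ • (default : X)) default]⟩

/-- for a one point set, `(X → M) ≅ M` -/
def earUniqueIso (X : Type) [MulAction G X] [Unique X] (M : Rep.{0} k G) : earFun X M ≅ M := by
  have hb : Function.Bijective (earUniqueMap X M).hom := by
    constructor
    · intro (φ : X → M.V) (φ' : X → M.V) h
      funext x
      rw [Subsingleton.elim x default]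
      exact h
    · intro m
      exact ⟨(fun _ => m : X → M.V), rfl⟩
  haveI : IsIso (earUniqueMap X M) := ec_isIso_of_bijective _ hb
  exact asIso (earUniqueMap X M)

end

end Fermat.Agent.TW
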