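/-
P10 / G4 (global Euler characteristic), leaf (A) (Artin induction), part 11:
the induction step for a finite group `G` with a surjection `χ` onto `ℤ / p`: the functions
`ℤ / p → M` (with `G` translating through `χ`) are filtered by the kernels of the powers of the
difference operator, with `p` graded pieces isomorphic to `M`, and they are coinduced from `ker χ`.
-/
import Mathlib
import Fermat.Agent.Lib.TW.Euler.ArtinInd.Orbit
import Fermat.Agent.Lib.TW.Euler.ArtinInd.Filtration

set_option autoImplicit false
set_option linter.style.haveILetI false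
set_option linter.unusedSectionVars false

open CategoryTheory

namespace Fermat.Agent.TW

noncomputable section

variable {G : Type} [Group G] (p : ℕ) [Fact p.Prime]

/-- `ℤ / p` with `G` acting by translation through `χ` -/
def EarZ (_χ : G →* Multiplicative (ZMod p)) : Type := ZMod p

instance (χ : G →* Multiplicative (ZMod p)) : MulAction G (EarZ p χ) where
  smul g x := (show ZMod p from x) + Multiplicative.toAdd (χ g)
  one_smul x := by
    change (show ZMod p from x) + Multiplicative.toAdd (χ 1) = x
    rw [map_one, toAdd_one, add_zero]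
  mul_smul g h x := by
    change (show ZMod p from x) + Multiplicative.toAdd (χ (g * h)) =
      ((show ZMod p from x) + Multiplicative.toAdd (χ h)) + Multiplicative.toAdd (χ g)
    rw [map_mul, toAdd_mul]
    abel

instance (χ : G →* Multiplicative (ZMod p)) : Finite (EarZ p χ) :=
  inferInstanceAs (Finite (ZMod p))

lemma earZ_smul (χ : G →* Multiplicative (ZMod p)) (g : G) (x : ZMod p) :
    (g • (show EarZ p χ from x) : EarZ p χ) = (x + Multiplicative.toAdd (χ g) : ZMod p) := rfl

section Shift

variable (V : Type) [AddCommGroup V] [Module (ZMod p) V]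

/-- the shift operator on functions `ℤ / p → V` -/
def earShift : Module.End (ZMod p) (ZMod p → V) := LinearMap.funLeft (ZMod p) V (fun x => x + 1)

lemma earShift_apply (f : ZMod p → V) (x : ZMod p) : earShift p V f x = f (x + 1) := rfl

lemma earShift_pow_apply (j : ℕ) (f : ZMod p → V) (x : ZMod p) :
    (earShift p V ^ j) f x = f (x + j) := by
  induction j generalizing x with
  | zero => simp
  | succ j ih =>
    rw [pow_succ', Module.End.mul_apply, earShift_apply, ih, Nat.cast_succ, add_assoc,
      add_comm (1 : ZMod p)]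

lemma earShift_pow_p : earShift p V ^ p = 1 := by
  apply LinearMap.ext
  intro f
  funext x
  rw [earShift_pow_apply, ZMod.natCast_self, add_zero]
  rfl

open Polynomial in
lemma ear_poly_identity : ((X : (ZMod p)[X]) - 1) ^ (p - 1) = ∑ j ∈ Finset.range p, X ^ j := by
  have hp : 1 ≤ p := (Fact.out : p.Prime).one_le
  have h1 : ((X : (ZMod p)[X]) - 1) ^ (p - 1) * (X - 1) =
      (∑ j ∈ Finset.range p, X ^ j) * (X - 1) := by
    rw [← pow_succ, Nat.sub_add_cancel hp, geom_sum_mul, sub_pow_char, one_pow]
  have h2 : (X : (ZMod p)[X]) - 1 ≠ 0 := by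
    have := X_sub_C_ne_zero (1 : ZMod p)
    rwa [map_one] at this
  exact mul_right_cancel₀ h2 h1

/-- the difference operator `S - 1` -/
def earDiff : Module.End (ZMod p) (ZMod p → V) := earShift p V - 1

lemma earDiff_apply (f : ZMod p → V) (x : ZMod p) : earDiff p V f x = f (x + 1) - f x := rfl

open Polynomial in
lemma earDiff_pow_p : earDiff p V ^ p = 0 := by
  have h := congrArg (aeval (earShift p V)) (sub_pow_char (p := p) (X : (ZMod p)[X]) 1)
  rw [one_pow] at h
  simp only [map_pow, map_sub, aeval_X, map_one] at h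
  rw [earShift_pow_p, sub_self] at h
  exact h

open Polynomial in
lemma earDiff_pow_pred : earDiff p V ^ (p - 1) = ∑ j ∈ Finset.range p, earShift p V ^ j := by
  have h := congrArg (aeval (earShift p V)) (ear_poly_identity p)
  simp only [map_pow, map_sub, aeval_X, map_one, map_sum] at h
  exact h

lemma earDiff_pow_pred_single (v : V) (x : ZMod p) :
    (earDiff p V ^ (p - 1)) (Pi.single 0 v) x = v := by
  haveI : NeZero p := ⟨(Fact.out : p.Prime).ne_zero⟩
  rw [earDiff_pow_pred, LinearMap.sum_apply, Finset.sum_apply]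
  simp_rw [earShift_pow_apply]
  rw [Finset.sum_eq_single (-x).val]
  · rw [ZMod.natCast_zmod_val, add_neg_cancel, Pi.single_eq_same]
  · intro j hj hne
    rw [Pi.single_apply, if_neg]
    intro h0
    apply hne
    have h1 : (j : ZMod p) = -x := by
      rw [eq_neg_iff_add_eq_zero, add_comm]
      exact h0
    rw [← h1, ZMod.val_natCast_of_lt (Finset.mem_range.1 hj)]
  · intro h
    exact absurd (Finset.mem_range.2 (ZMod.val_lt _)) h

lemma earDiff_eq_zero_iff (f : ZMod p → V) : earDiff p V f = 0 ↔ ∀ x, f x = f 0 := by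
  haveI : NeZero p := ⟨(Fact.out : p.Prime).ne_zero⟩
  constructor
  · intro h x
    have h1 : ∀ y, f (y + 1) = f y := fun y => by
      have := congrFun h y
      rw [earDiff_apply] at this
      exact sub_eq_zero.1 this
    have h2 : ∀ n : ℕ, f (n : ZMod p) = f 0 := fun n => by
      induction n with
      | zero => simp
      | succ n ih => rw [Nat.cast_succ, h1, ih]
    rw [← ZMod.natCast_zmod_val x]
    exact h2 _
  · intro h
    funext x
    rw [earDiff_apply, h (x + 1), h x, sub_self]
    rfl

end Shift

section Main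

variable (χ : G →* Multiplicative (ZMod p)) (M : Rep.{0} (ZMod p) G)

/-- the difference operator on `earFun (EarZ p χ) M` -/
def earDiffP : Module.End (ZMod p) (earFun (EarZ p χ) M).V := earDiff p M.V

lemma earDiffP_comm (g : G) : Commute (earDiffP p χ M) ((earFun (EarZ p χ) M).ρ g) := by
  refine LinearMap.ext fun (f : ZMod p → M.V) => funext fun (x : ZMod p) => ?_
  change M.ρ g (f (x + 1 + Multiplicative.toAdd (χ g⁻¹))) -
      M.ρ g (f (x + Multiplicative.toAdd (χ g⁻¹))) =
    M.ρ g (f (x + Multiplicative.toAdd (χ g⁻¹) + 1) - f (x + Multiplicative.toAdd (χ g⁻¹)))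
  rw [map_sub, add_right_comm]

/-- evaluation at `0` on the constant functions -/
def earConstMap :
    earKerPow (earFun (EarZ p χ) M) (earDiffP p χ M) (earDiffP_comm p χ M) 1 ⟶ M :=
  Rep.ofHom ⟨
    { toFun := fun f => (show ZMod p → M.V from f.1) 0
      map_add' := fun _ _ => rfl
      map_smul' := fun _ _ => rfl }, fun g => by
    refine LinearMap.ext fun f => ?_
    obtain ⟨(f : ZMod p → M.V), hf⟩ := f
    rw [LinearMap.mem_ker, pow_one] at hf
    have hc := (earDiff_eq_zero_iff p M.V f).1 hf
    change M.ρ g (f (0 + Multiplicative.toAdd (χ g⁻¹))) = M.ρ g (f 0)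
    rw [hc]⟩

lemma earConstMap_bijective : Function.Bijective (earConstMap p χ M).hom := by
  constructor
  · rintro ⟨(f : ZMod p → M.V), hf⟩ ⟨(f' : ZMod p → M.V), hf'⟩ (h : f 0 = f' 0)
    apply Subtype.ext
    rw [LinearMap.mem_ker, pow_one] at hf hf'
    have hc := (earDiff_eq_zero_iff p M.V f).1 hf
    have hc' := (earDiff_eq_zero_iff p M.V f').1 hf'
    funext x
    change f x = f' x
    rw [hc, hc', h]
  · intro m
    refine ⟨⟨(fun _ => m : ZMod p → M.V), ?_⟩, rfl⟩
    rw [LinearMap.mem_ker, pow_one]
    exact (earDiff_eq_zero_iff p M.V _).2 (fun _ => rfl)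

/-- **The induction step for a group with a quotient of order `p`.** -/
theorem ear_zmod_quotient [Finite G] (F : EcAddFun (ZMod p) G)
    (hχ : Function.Surjective χ)
    (hprop : ∀ H : Subgroup G, H ≠ ⊤ → ∀ N : Rep.{0} (ZMod p) H, Finite N.V →
      F.f (Rep.coind H.subtype N) = 0) [Finite M.V] : F.f M = 0 := by
  haveI : Module.Finite (ZMod p) M.V := Module.Finite.of_finite
  haveI : Module.Finite (ZMod p) (earFun (EarZ p χ) M).V :=
    (inferInstance : Module.Finite (ZMod p) (ZMod p → M.V))
  -- the filtration
  have h1 := ear_filtration F (earFun (EarZ p χ) M) (earDiffP p χ M) (earDiffP_comm p χ M) p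
    (fun (z : ZMod p → M.V) hz => by
      refine ⟨(Pi.single 0 (z 0) : ZMod p → M.V), ?_⟩
      funext x
      have hc := (earDiff_eq_zero_iff p M.V z).1 hz
      rw [hc x]
      exact earDiff_pow_pred_single p M.V (z 0) x)
    (earDiff_pow_p p M.V)
  have h2 : F.f (earKerPow (earFun (EarZ p χ) M) (earDiffP p χ M) (earDiffP_comm p χ M) 1) =
      F.f M := by
    refine F.iso _ _ ⟨?_⟩
    haveI : IsIso (earConstMap p χ M) := ec_isIso_of_bijective _ (earConstMap_bijective p χ M)
    exact asIso (earConstMap p χ M)
  -- coinduction from the kernel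
  have h3 : F.f (earFun (EarZ p χ) M) =
      F.f (Rep.coind χ.ker.subtype (Rep.res χ.ker.subtype M)) := by
    refine F.iso _ _ ⟨earOrbitIso (EarZ p χ) M (show EarZ p χ from (0 : ZMod p)) χ.ker
      (fun g => ?_) (fun x => ?_)⟩
    · rw [MonoidHom.mem_ker, earZ_smul, zero_add]
      exact (toAdd_eq_zero).symm
    · obtain ⟨g, hg⟩ := hχ (Multiplicative.ofAdd (show ZMod p from x))
      refine ⟨g, ?_⟩
      rw [earZ_smul, zero_add, hg]
      rfl
  have h4 : χ.ker ≠ ⊤ := by
    intro htop
    obtain ⟨g, hg⟩ := hχ (Multiplicative.ofAdd (1 : ZMod p))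
    have : g ∈ χ.ker := htop ▸ Subgroup.mem_top g
    rw [MonoidHom.mem_ker, hg] at this
    have h5 : (1 : ZMod p) = 0 := by
      have := congrArg Multiplicative.toAdd this
      simp at this
    haveI : Fact (1 < p) := ⟨(Fact.out : p.Prime).one_lt⟩
    exact one_ne_zero h5
  rw [h3, hprop _ h4 _ (show Finite M.V from inferInstance), h2] at h1
  have hp : (p : ℝ) ≠ 0 := by
    exact_mod_cast (Fact.out : p.Prime).ne_zero
  exact ((mul_eq_zero.1 h1.symm).resolve_left hp)

end Main

end

end Fermat.Agent.TW
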