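/-
P10 / G4 (global Euler characteristic), leaf (A) (Artin induction), part 8:
counting fixed points on sigma types and coset spaces; the inclusion-exclusion identity for a finite
non-cyclic group covered by its proper subgroups.
-/
import Mathlib

set_option autoImplicit false
set_option linter.style.haveILetI false
set_option linter.unusedSectionVars false

namespace Fermat.Agent.TW

noncomputable section

variable {G : Type} [Group G]

/-- the number of fixed points of `g` on `X` -/
def earFixCard (g : G) (X : Type) [MulAction G X] : ℕ := Nat.card {x : X // g • x = x}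

/-- fixed points on a disjoint union -/
def earFixSigmaEquiv (g : G) {ι : Type} (α : ι → Type) [∀ i, MulAction G (α i)] :
    {q : Σ i, α i // g • q = q} ≃ Σ i, {b : α i // g • b = b} where
  toFun q := ⟨q.1.1, q.1.2, by
    obtain ⟨⟨i, b⟩, h⟩ := q
    exact sigma_mk_injective h⟩
  invFun q := ⟨⟨q.1, q.2.1⟩, by rw [Sigma.smul_mk, q.2.2]⟩
  left_inv := fun ⟨⟨_, _⟩, _⟩ => rfl
  right_inv := fun ⟨_, ⟨_, _⟩⟩ => rfl

lemma ear_fix_sigma (g : G) {ι : Type} [Fintype ι] (α : ι → Type) [∀ i, MulAction G (α i)]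
    [∀ i, Finite (α i)] : earFixCard g (Σ i, α i) = ∑ i, earFixCard g (α i) := by
  unfold earFixCard
  rw [Nat.card_congr (earFixSigmaEquiv g α), Nat.card_sigma]

lemma ear_fix_sigma_const (g : G) (T : Type) [Finite T] (Y : Type) [MulAction G Y] [Finite Y] :
    earFixCard g (Σ _ : T, Y) = Nat.card T * earFixCard g Y := by
  haveI := Fintype.ofFinite T
  rw [ear_fix_sigma g (fun _ : T => Y), Finset.sum_const, Finset.card_univ, smul_eq_mul,
    Nat.card_eq_fintype_card]

lemma ear_smul_mk_eq_iff (H : Subgroup G) (g x : G) :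
    g • (x : G ⧸ H) = (x : G ⧸ H) ↔ x⁻¹ * g * x ∈ H := by
  rw [MulAction.Quotient.smul_mk, QuotientGroup.eq, ← H.inv_mem_iff, smul_eq_mul]
  have : ((g * x)⁻¹ * x)⁻¹ = x⁻¹ * g * x := by group
  rw [this]

/-- fixed points on a coset space -/
lemma ear_fix_quot [Finite G] (g : G) (H : Subgroup G) :
    Nat.card H * earFixCard g (G ⧸ H) = Nat.card {x : G // x⁻¹ * g * x ∈ H} := by
  unfold earFixCard
  have e := QuotientGroup.preimageMkEquivSubgroupProdSet H {c : G ⧸ H | g • c = c}
  rw [← Nat.card_prod]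
  refine (Nat.card_congr (Equiv.trans ?_ e)).symm
  refine Equiv.subtypeEquivRight (fun x => ?_)
  rw [Set.mem_preimage, Set.mem_ofPred_eq, ear_smul_mk_eq_iff]

/-! ### Inclusion-exclusion -/

/-- the intersection of a finite family of subgroups (`⊤` for the empty family) -/
def earInf (J : Finset (Subgroup G)) : Subgroup G := J.inf id

lemma mem_earInf (J : Finset (Subgroup G)) (x : G) : x ∈ earInf J ↔ ∀ H ∈ J, x ∈ H := by
  classical
  unfold earInf
  induction J using Finset.induction_on with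
  | empty => simp
  | insert a s _ ih => simp [Finset.inf_insert, Subgroup.mem_inf, ih]

lemma earInf_empty : earInf (∅ : Finset (Subgroup G)) = ⊤ := rfl

lemma earInf_le {J : Finset (Subgroup G)} {H : Subgroup G} (hH : H ∈ J) : earInf J ≤ H :=
  fun _ hx => (mem_earInf J _).1 hx H hH

open Finset in
/-- the inclusion-exclusion identity: if the family `Ps` of subgroups covers `G`, the alternating sum
over `J ⊆ Ps` of the number of `x` with `x⁻¹ g x ∈ ⋂ J` vanishes -/
theorem ear_incl_excl [Finite G] (Ps : Finset (Subgroup G)) (hcov : ∀ y : G, ∃ H ∈ Ps, y ∈ H)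
    (g : G) :
    ∑ J ∈ Ps.powerset, (-1 : ℤ) ^ #J * (Nat.card {x : G // x⁻¹ * g * x ∈ earInf J} : ℤ) = 0 := by
  classical
  haveI := Fintype.ofFinite G
  have h1 : ∀ J : Finset (Subgroup G), (Nat.card {x : G // x⁻¹ * g * x ∈ earInf J} : ℤ) =
      ∑ x : G, ∏ H ∈ J, (if x⁻¹ * g * x ∈ H then (1 : ℤ) else 0) := by
    intro J
    rw [Nat.card_eq_fintype_card, Fintype.card_subtype, Finset.card_filter]
    push_cast
    refine Finset.sum_congr rfl (fun x _ => ?_)
    rw [Finset.prod_ite_zero, Finset.prod_const_one]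
    by_cases h : x⁻¹ * g * x ∈ earInf J
    · rw [if_pos h, if_pos ((mem_earInf _ _).1 h)]
    · rw [if_neg h, if_neg (fun h' => h ((mem_earInf _ _).2 h'))]
  simp_rw [h1, Finset.mul_sum]
  rw [Finset.sum_comm]
  refine Finset.sum_eq_zero (fun x _ => ?_)
  have h2 := Finset.prod_sub (fun _ : Subgroup G => (1 : ℤ))
    (fun H => if x⁻¹ * g * x ∈ H then (1 : ℤ) else 0) Ps
  simp only [Finset.prod_const_one, mul_one] at h2
  rw [← h2]
  obtain ⟨H, hH, hx⟩ := hcov (x⁻¹ * g * x)
  refine Finset.prod_eq_zero hH ?_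
  rw [if_pos hx, sub_self]

open Finset in
/-- the even and the odd part of the inclusion-exclusion identity -/
theorem ear_incl_excl_parity [Finite G] (Ps : Finset (Subgroup G))
    (hcov : ∀ y : G, ∃ H ∈ Ps, y ∈ H) (g : G) :
    ∑ J ∈ Ps.powerset.filter (fun J => Even #J), Nat.card {x : G // x⁻¹ * g * x ∈ earInf J} =
      ∑ J ∈ Ps.powerset.filter (fun J => ¬ Even #J),
        Nat.card {x : G // x⁻¹ * g * x ∈ earInf J} := by
  have h := ear_incl_excl Ps hcov g
  rw [← Finset.sum_filter_add_sum_filter_not Ps.powerset (fun J => Even #J)] at h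
  have h1 : ∑ J ∈ Ps.powerset.filter (fun J => Even #J),
      (-1 : ℤ) ^ #J * (Nat.card {x : G // x⁻¹ * g * x ∈ earInf J} : ℤ) =
      ((∑ J ∈ Ps.powerset.filter (fun J => Even #J),
        Nat.card {x : G // x⁻¹ * g * x ∈ earInf J} : ℕ) : ℤ) := by
    push_cast
    refine Finset.sum_congr rfl (fun J hJ => ?_)
    rw [(Finset.mem_filter.1 hJ).2.neg_one_pow, one_mul]
  have h2 : ∑ J ∈ Ps.powerset.filter (fun J => ¬ Even #J),
      (-1 : ℤ) ^ #J * (Nat.card {x : G // x⁻¹ * g * x ∈ earInf J} : ℤ) =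
      -((∑ J ∈ Ps.powerset.filter (fun J => ¬ Even #J),
        Nat.card {x : G // x⁻¹ * g * x ∈ earInf J} : ℕ) : ℤ) := by
    push_cast
    rw [← Finset.sum_neg_distrib]
    refine Finset.sum_congr rfl (fun J hJ => ?_)
    rw [(Nat.not_even_iff_odd.1 (Finset.mem_filter.1 hJ).2).neg_one_pow, neg_one_mul]
  rw [h1, h2] at h
  have h3 := eq_neg_of_add_eq_zero_left h
  rw [neg_neg] at h3
  exact_mod_cast h3

end

end Fermat.Agent.TW
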