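/-
P10 / G4 (global Euler characteristic), leaf (A) (Artin induction), part 7:
for a finite disjoint union `Σ i, X i` of finite `G`-sets, `F ((Σ i, X i) → M) = ∑ i, F (X i → M)`.
-/
import Mathlib
import Fermat.Agent.Lib.TW.Euler.ArtinInd.FunRep

set_option autoImplicit false
set_option linter.style.haveILetI false
set_option linter.unusedSectionVars false

open CategoryTheory

namespace Fermat.Agent.TW

noncomputable section

variable {k : Type} [Field k] {G : Type} [Group G]

section Ext

variable {ι : Type} [DecidableEq ι] (X : ι → Type) (V : Type) [Zero V]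

/-- extension by zero of a function on one summand -/
def earSigmaExt (a : ι) (φ : X a → V) : (Σ i, X i) → V :=
  fun q => if h : q.1 = a then φ (h ▸ q.2) else 0

lemma earSigmaExt_same (a : ι) (φ : X a → V) (x : X a) : earSigmaExt X V a φ ⟨a, x⟩ = φ x := by
  simp [earSigmaExt]

lemma earSigmaExt_ne (a : ι) (φ : X a → V) {i : ι} (h : i ≠ a) (x : X i) :
    earSigmaExt X V a φ ⟨i, x⟩ = 0 := by
  simp [earSigmaExt, h]

end Ext

section Sum

variable {ι : Type} (X : ι → Type) [∀ i, MulAction G (X i)] (M : Rep.{0} k G)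

/-- the functions on `Σ i, X i` vanishing outside the summands in `s` -/
def earSigmaSub (s : Finset ι) : Submodule k (earFun (Σ i, X i) M).V where
  carrier := {f | ∀ i, i ∉ s → ∀ x : X i, (show (Σ i, X i) → M.V from f) ⟨i, x⟩ = 0}
  add_mem' := fun {f f'} hf hf' i hi x => by
    change (show (Σ i, X i) → M.V from f) ⟨i, x⟩ + (show (Σ i, X i) → M.V from f') ⟨i, x⟩ = 0
    rw [hf i hi x, hf' i hi x, add_zero]
  zero_mem' := fun _ _ _ => rfl
  smul_mem' := fun c {f} hf i hi x => by
    change c • (show (Σ i, X i) → M.V from f) ⟨i, x⟩ = 0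
    rw [hf i hi x, smul_zero]

lemma mem_earSigmaSub (s : Finset ι) (f : (Σ i, X i) → M.V) :
    f ∈ earSigmaSub X M s ↔ ∀ i, i ∉ s → ∀ x : X i, f ⟨i, x⟩ = 0 := Iff.rfl

lemma earSigmaSub_stable (s : Finset ι) (g : G) :
    earSigmaSub X M s ≤ (earSigmaSub X M s).comap ((earFun (Σ i, X i) M).ρ g) := by
  intro (f : (Σ i, X i) → M.V) hf i hi x
  change M.ρ g (f (g⁻¹ • ⟨i, x⟩)) = 0
  rw [Sigma.smul_mk, hf i hi, map_zero]

/-- restriction to one summand -/
def earSigmaRes (s : Finset ι) (a : ι) :
    ecSub (earFun (Σ i, X i) M) (earSigmaSub X M s) (earSigmaSub_stable X M s) ⟶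
      earFun (X a) M :=
  Rep.ofHom ⟨(LinearMap.funLeft k M.V (Sigma.mk a)) ∘ₗ (earSigmaSub X M s).subtype, fun _ => rfl⟩

/-- inclusion for `s ⊆ t` -/
def earSigmaIncl {s t : Finset ι} (hst : s ⊆ t) :
    ecSub (earFun (Σ i, X i) M) (earSigmaSub X M s) (earSigmaSub_stable X M s) ⟶
      ecSub (earFun (Σ i, X i) M) (earSigmaSub X M t) (earSigmaSub_stable X M t) :=
  Rep.ofHom ⟨Submodule.inclusion (fun _ hf i hi x => hf i (fun h => hi (hst h)) x), fun _ => rfl⟩

theorem ear_sigma_sub_sum [Finite ι] [∀ i, Finite (X i)] (F : EcAddFun k G)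
    [Module.Finite k M.V] (s : Finset ι) :
    F.f (ecSub (earFun (Σ i, X i) M) (earSigmaSub X M s) (earSigmaSub_stable X M s)) =
      ∑ i ∈ s, F.f (earFun (X i) M) := by
  classical
  induction s using Finset.induction_on with
  | empty =>
    rw [Finset.sum_empty]
    haveI : Subsingleton
        (ecSub (earFun (Σ i, X i) M) (earSigmaSub X M ∅) (earSigmaSub_stable X M ∅)).V := by
      refine ⟨fun f f' => Subtype.ext ?_⟩
      funext ⟨i, x⟩
      exact (f.2 i (Finset.notMem_empty i) x).trans (f'.2 i (Finset.notMem_empty i) x).symm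
    exact F.map_of_subsingleton _
  | insert a s ha ih =>
    rw [Finset.sum_insert ha, ← ih, add_comm]
    refine F.add _ _ _ (earSigmaIncl X M (Finset.subset_insert a s))
      (earSigmaRes X M (insert a s) a) ?_ ?_ ?_ ?_
    · change Module.Finite k ↥(earSigmaSub X M (insert a s))
      haveI : Module.Finite k (earFun (Σ i, X i) M).V :=
        (inferInstance : Module.Finite k ((Σ i, X i) → M.V))
      infer_instance
    · intro f f' hff'
      apply Subtype.ext
      have := congrArg Subtype.val hff'
      exact this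
    · intro (φ : X a → M.V)
      refine ⟨⟨earSigmaExt X M.V a φ, fun i hi x => ?_⟩, ?_⟩
      · exact earSigmaExt_ne X M.V a φ (fun h => hi (by rw [h]; exact Finset.mem_insert_self a s)) x
      · funext x
        exact earSigmaExt_same X M.V a φ x
    · intro f
      constructor
      · intro hf
        refine ⟨⟨f.1, fun i hi x => ?_⟩, Subtype.ext rfl⟩
        by_cases hia : i = a
        · subst hia
          exact congrFun hf x
        · exact f.2 i (fun h => (Finset.mem_insert.1 h).elim hia hi) x
      · rintro ⟨f', rfl⟩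
        funext x
        exact f'.2 a ha x

/-- **additivity over disjoint unions** -/
theorem ear_sigma_sum [Finite ι] [∀ i, Finite (X i)] (F : EcAddFun k G)
    [Module.Finite k M.V] [Fintype ι] :
    F.f (earFun (Σ i, X i) M) = ∑ i, F.f (earFun (X i) M) := by
  rw [← ear_sigma_sub_sum X M F Finset.univ]
  refine F.iso _ _ ⟨?_⟩
  let e := ecSubIncl (earFun (Σ i, X i) M) (earSigmaSub X M Finset.univ)
    (earSigmaSub_stable X M Finset.univ)
  have hb : Function.Bijective e.hom :=
    ⟨fun a b hab => Subtype.ext hab, fun f => ⟨⟨f, fun i hi _ => absurd (Finset.mem_univ i) hi⟩, rfl⟩⟩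
  haveI : IsIso e := ec_isIso_of_bijective e hb
  exact (asIso e).symm

end Sum

end

end Fermat.Agent.TW
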