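/-
P10 / G4 (global Euler characteristic), leaf (A) (Artin induction), part 9:
the induction step for a finite non-cyclic group `G`: an additive function on `Rep (ZMod p) G`
killing everything coinduced from proper subgroups kills every finite representation.
-/
import Mathlib
import Fermat.Agent.Lib.TW.Euler.ArtinInd.Orbit
import Fermat.Agent.Lib.TW.Euler.ArtinInd.SigmaSum
import Fermat.Agent.Lib.TW.Euler.ArtinInd.Cover

set_option autoImplicit false
set_option linter.style.haveILetI false
set_option linter.unusedSectionVars false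

open CategoryTheory

namespace Fermat.Agent.TW

noncomputable section

variable {G : Type} [Group G]

/-- the `G`-set attached to a finite family `J` of subgroups: `|⋂ J|` copies of `G / ⋂ J` -/
abbrev earCovSet (J : Finset (Subgroup G)) : Type := Σ _ : earInf J, G ⧸ earInf J

/-- the disjoint union of the `earCovSet J`, `J ∈ S` -/
abbrev earCovUnion (S : Finset (Finset (Subgroup G))) : Type := Σ J : S, earCovSet J.1

lemma ear_fix_covSet [Finite G] (g : G) (J : Finset (Subgroup G)) :
    earFixCard g (earCovSet J) = Nat.card {x : G // x⁻¹ * g * x ∈ earInf J} := by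
  rw [ear_fix_sigma_const, ear_fix_quot]

lemma ear_fix_covUnion [Finite G] (g : G) (S : Finset (Finset (Subgroup G))) :
    earFixCard g (earCovUnion S) = ∑ J ∈ S, Nat.card {x : G // x⁻¹ * g * x ∈ earInf J} := by
  rw [ear_fix_sigma g (fun J : S => earCovSet J.1)]
  simp_rw [ear_fix_covSet]
  exact Finset.sum_coe_sort S (fun J => Nat.card {x : G // x⁻¹ * g * x ∈ earInf J})

section Values

variable {k : Type} [Field k] (F : EcAddFun k G) (M : Rep.{0} k G)

/-- the value on a coset space of a proper subgroup -/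
lemma ear_fun_quot_eq (H : Subgroup G) :
    F.f (earFun (G ⧸ H) M) = F.f (Rep.coind H.subtype (Rep.res H.subtype M)) := by
  refine F.iso _ _ ⟨earOrbitIso (G ⧸ H) M ((1 : G) : G ⧸ H) H (fun g => ?_) (fun x => ?_)⟩
  · rw [ear_smul_mk_eq_iff]
    simp
  · obtain ⟨g, rfl⟩ := QuotientGroup.mk_surjective x
    exact ⟨g, by rw [MulAction.Quotient.smul_mk, smul_eq_mul, mul_one]⟩

/-- the value on the one point coset space -/
lemma ear_fun_quot_top (H : Subgroup G) (hH : H = ⊤) : F.f (earFun (G ⧸ H) M) = F.f M := by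
  subst hH
  haveI : Unique (G ⧸ (⊤ : Subgroup G)) :=
    @Unique.mk' _ ⟨((1 : G) : G ⧸ (⊤ : Subgroup G))⟩ QuotientGroup.subsingleton_quotient_top
  exact F.iso _ _ ⟨earUniqueIso _ M⟩

lemma ear_fun_covSet [Finite G] [Module.Finite k M.V] (J : Finset (Subgroup G)) :
    F.f (earFun (earCovSet J) M) = Nat.card (earInf J) * F.f (earFun (G ⧸ earInf J) M) := by
  haveI := Fintype.ofFinite (earInf J)
  rw [ear_sigma_sum (fun _ : earInf J => G ⧸ earInf J) M F, Finset.sum_const, Finset.card_univ,
    nsmul_eq_mul, Nat.card_eq_fintype_card]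

lemma ear_fun_covUnion [Finite G] [Module.Finite k M.V] (S : Finset (Finset (Subgroup G))) :
    F.f (earFun (earCovUnion S) M) =
      ∑ J ∈ S, Nat.card (earInf J) * F.f (earFun (G ⧸ earInf J) M) := by
  rw [ear_sigma_sum (fun J : S => earCovSet J.1) M F]
  simp_rw [ear_fun_covSet]
  exact Finset.sum_coe_sort S (fun J => Nat.card (earInf J) * F.f (earFun (G ⧸ earInf J) M))

end Values

/-- **The non-cyclic induction step.** -/
theorem ear_noncyclic [Finite G] (hG : ¬ IsCyclic G) (p : ℕ) [Fact p.Prime]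
    (F : EcAddFun (ZMod p) G)
    (hprop : ∀ H : Subgroup G, H ≠ ⊤ → ∀ N : Rep.{0} (ZMod p) H, Finite N.V →
      F.f (Rep.coind H.subtype N) = 0)
    (M : Rep.{0} (ZMod p) G) [Finite M.V] : F.f M = 0 := by
  classical
  haveI := Fintype.ofFinite (Subgroup G)
  haveI : Module.Finite (ZMod p) M.V := Module.Finite.of_finite
  let Ps : Finset (Subgroup G) := Finset.univ.filter (fun H => H ≠ ⊤)
  have hPs : ∀ H, H ∈ Ps ↔ H ≠ ⊤ := fun H => by simp [Ps]
  have hcov : ∀ y : G, ∃ H ∈ Ps, y ∈ H := fun y => by
    refine ⟨Subgroup.zpowers y, (hPs _).2 (fun h => hG ⟨y, fun x => ?_⟩), Subgroup.mem_zpowers y⟩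
    have : x ∈ Subgroup.zpowers y := h ▸ Subgroup.mem_top x
    exact this
  let S₀ := Ps.powerset.filter (fun J => Even J.card)
  let S₁ := Ps.powerset.filter (fun J => ¬ Even J.card)
  -- the two `G`-sets have the same fixed point counts
  have hfix : ∀ g : G, Nat.card {x : earCovUnion S₀ // g • x = x} =
      Nat.card {x : earCovUnion S₁ // g • x = x} := fun g => by
    have h0 := ear_fix_covUnion g S₀
    have h1 := ear_fix_covUnion g S₁
    unfold earFixCard at h0 h1
    rw [h0, h1]
    exact ear_incl_excl_parity Ps hcov g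
  have hEq := ear_fun_eq_of_fix p F M (earCovUnion S₀) (earCovUnion S₁) hfix
  rw [ear_fun_covUnion, ear_fun_covUnion] at hEq
  -- proper intersections contribute nothing
  have hzero : ∀ J : Finset (Subgroup G), J ⊆ Ps → J.Nonempty →
      F.f (earFun (G ⧸ earInf J) M) = 0 := fun J hJ hne => by
    obtain ⟨H, hH⟩ := hne
    rw [ear_fun_quot_eq]
    refine hprop _ (fun htop => ?_) _ (show Finite M.V from inferInstance)
    have h1 : earInf J ≤ H := earInf_le hH
    rw [htop, top_le_iff] at h1
    exact (hPs H).1 (hJ hH) h1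
  -- the odd side vanishes
  have hodd : ∑ J ∈ S₁, (Nat.card (earInf J) : ℝ) * F.f (earFun (G ⧸ earInf J) M) = 0 := by
    refine Finset.sum_eq_zero (fun J hJ => ?_)
    obtain ⟨hJ1, hJ2⟩ := Finset.mem_filter.1 hJ
    rw [hzero J (Finset.mem_powerset.1 hJ1), mul_zero]
    rw [Finset.nonempty_iff_ne_empty]
    rintro rfl
    exact hJ2 (by simp)
  -- the even side is `|G| * F M`
  have heven : ∑ J ∈ S₀, (Nat.card (earInf J) : ℝ) * F.f (earFun (G ⧸ earInf J) M) =
      Nat.card G * F.f M := by
    have hmem : (∅ : Finset (Subgroup G)) ∈ S₀ := by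
      simp [S₀]
    rw [Finset.sum_eq_single_of_mem ∅ hmem]
    · rw [ear_fun_quot_top F M _ earInf_empty, earInf_empty]
      congr 2
      exact Nat.card_congr Subgroup.topEquiv.toEquiv
    · intro J hJ hne
      obtain ⟨hJ1, -⟩ := Finset.mem_filter.1 hJ
      rw [hzero J (Finset.mem_powerset.1 hJ1) (Finset.nonempty_iff_ne_empty.2 hne), mul_zero]
  rw [hodd, heven] at hEq
  have hcard : (Nat.card G : ℝ) ≠ 0 := by
    exact_mod_cast Nat.card_pos.ne'
  exact (mul_eq_zero.1 hEq).resolve_left hcard

end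

end Fermat.Agent.TW
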