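/-
P10 / G4 (global Euler characteristic), leaf (A) (Artin induction), final part:
an additive function on `Rep (ZMod p) G` (`G` a finite group) which kills everything coinduced from
cyclic subgroups of order prime to `p` kills every finite representation (Serre's `p'`-form of
Artin's induction theorem), and the variant `StubA` of the G4 blueprint.
-/
import Mathlib
import Fermat.Agent.Lib.TW.Euler.ArtinInd.NonCyclic
import Fermat.Agent.Lib.TW.Euler.ArtinInd.CaseP

set_option autoImplicit false
set_option linter.style.haveILetI false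
set_option linter.unusedSectionVars false

open CategoryTheory

namespace Fermat.Agent.TW

noncomputable section

/-- a finite cyclic group of order divisible by `p` has a surjection onto `ℤ / p` -/
theorem ear_exists_surj_zmod (p : ℕ) [Fact p.Prime] (G : Type) [Group G] [Finite G] [IsCyclic G]
    (hp : p ∣ Nat.card G) :
    ∃ χ : G →* Multiplicative (ZMod p), Function.Surjective χ := by
  obtain ⟨g₀, hg₀⟩ := IsCyclic.exists_generator (α := G)
  have hord : orderOf (Multiplicative.ofAdd (1 : ZMod p)) ∣ orderOf g₀ := by
    rw [orderOf_ofAdd_eq_addOrderOf, ZMod.addOrderOf_one, orderOf_eq_card_of_forall_mem_zpowers hg₀]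
    exact hp
  refine ⟨monoidHomOfForallMemZpowers hg₀ hord, fun y => ?_⟩
  haveI : NeZero p := ⟨(Fact.out : p.Prime).ne_zero⟩
  refine ⟨g₀ ^ (Multiplicative.toAdd y).val, ?_⟩
  rw [map_pow, monoidHomOfForallMemZpowers_apply_gen, ← ofAdd_nsmul, nsmul_eq_mul, mul_one,
    ZMod.natCast_zmod_val]
  rfl

/-- the induction, with the hypothesis phrased for injective homomorphisms from cyclic groups -/
theorem ear_induction (p : ℕ) [Fact p.Prime] :
    ∀ (n : ℕ) (G : Type) [Group G] [Finite G], Nat.card G = n →
      ∀ F : EcAddFun (ZMod p) G,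
        (∀ (U : Type) [Group U] [Finite U] [IsCyclic U] (φ : U →* G), Function.Injective φ →
          ¬ p ∣ Nat.card U → ∀ N : Rep.{0} (ZMod p) U, Finite N.V →
            F.f (Rep.coind φ N) = 0) →
        ∀ M : Rep.{0} (ZMod p) G, Finite M.V → F.f M = 0 := by
  intro n
  induction n using Nat.strong_induction_on with
  | _ n ih =>
    intro G _ _ hn F h M hM
    -- everything coinduced from a proper subgroup is killed
    have hprop : ∀ H : Subgroup G, H ≠ ⊤ → ∀ N : Rep.{0} (ZMod p) H, Finite N.V →
        F.f (Rep.coind H.subtype N) = 0 := by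
      intro H hH N hN
      have hlt : Nat.card H < n := by
        rw [← hn]
        refine lt_of_le_of_ne (Subgroup.card_le_card_group H) (fun heq => hH ?_)
        exact (Subgroup.card_eq_iff_eq_top H).1 heq
      refine ih _ hlt H rfl (earCoindFun F H) ?_ N hN
      intro U _ _ _ φ hφ hpU N' hN'
      rw [earCoindFun_f, F.iso _ _ ⟨earCoindTransIso φ H.subtype N'⟩]
      exact h U (H.subtype.comp φ) (H.subtype_injective.comp hφ) hpU N' hN'
    by_cases hc : IsCyclic G
    · by_cases hp : p ∣ Nat.card G
      · obtain ⟨χ, hχ⟩ := ear_exists_surj_zmod p G hp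
        exact ear_zmod_quotient p χ M F hχ hprop
      · rw [← F.iso _ _ ⟨earCoindIdIso M⟩]
        exact h G (MonoidHom.id G) (fun _ _ h => h) hp M hM
    · exact ear_noncyclic hc p F hprop M

/-- **Artin induction, Serre's `p'`-form**: an additive function on `Rep (ZMod p) G` killing
everything coinduced from cyclic subgroups of order prime to `p` kills every finite
representation. -/
theorem ec_addFun_eq_zero_of_cyclic' {p : ℕ} [Fact p.Prime] {G : Type} [Group G] [Finite G]
    (F : EcAddFun (ZMod p) G)
    (h : ∀ (U : Subgroup G), IsCyclic U → ¬ p ∣ Nat.card U → ∀ (N : Rep.{0} (ZMod p) U),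
      Finite N.V → F.f (Rep.coind U.subtype N) = 0)
    (M : Rep.{0} (ZMod p) G) (hM : Finite M.V) : F.f M = 0 := by
  refine ear_induction p _ G rfl F ?_ M hM
  intro U _ _ _ φ hφ hpU N hN
  rw [F.iso _ _ ⟨earCoindRangeIso φ hφ N⟩]
  have e : U ≃* φ.range := MonoidHom.ofInjective hφ
  refine h φ.range (isCyclic_of_surjective e e.surjective) ?_ _ hN
  rwa [← Nat.card_congr e.toEquiv]

/-- **Artin induction, the form of the G4 blueprint (`StubA`)**: the hypothesis is only required
for representations of cyclic subgroups on which the elements of `p`-power order act trivially. -/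
theorem ec_addFun_eq_zero_of_cyclic {p : ℕ} [Fact p.Prime] {G : Type} [Group G] [Finite G]
    (F : EcAddFun (ZMod p) G)
    (h : ∀ (U : Subgroup G), IsCyclic U → ∀ (N : Rep.{0} (ZMod p) U), Finite N.V →
      (∀ v : U, (∃ k : ℕ, orderOf v = p ^ k) → ∀ x : N.V, N.ρ v x = x) →
      F.f (Rep.coind U.subtype N) = 0)
    (M : Rep.{0} (ZMod p) G) (hM : Finite M.V) : F.f M = 0 := by
  refine ec_addFun_eq_zero_of_cyclic' F (fun U hU hpU N hN => h U hU N hN ?_) M hM
  rintro v ⟨k, hk⟩ x
  have h1 : orderOf v ∣ Nat.card U := orderOf_dvd_natCard v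
  have h2 : k = 0 := by
    by_contra hk0
    apply hpU
    refine dvd_trans ?_ h1
    rw [hk]
    exact dvd_pow_self p hk0
  rw [h2, pow_zero, orderOf_eq_one_iff] at hk
  rw [hk, map_one]
  rfl

end

end Fermat.Agent.TW
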